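import Fermat.Agent.AbVar.Scheme.Morphism

/-!
# From growth bounds to the exact number of torsion points
-/

set_option autoImplicit false

noncomputable section

universe u

open CategoryTheory CategoryTheory.Limits AlgebraicGeometry NeronModelInfra GoodReductionJacobian

namespace Fermat.Agent.AbVar

theorem eq_of_pow_bounds {a b C : ℕ} (h1 : ∀ j, a ^ j ≤ C * b ^ j) (h2 : ∀ j, b ^ j ≤ C * a ^ j) :
    a = b := by
  suffices key : ∀ a b : ℕ, (∀ j, b ^ j ≤ C * a ^ j) → b ≤ a from
    le_antisymm (key b a h1) (key a b h2)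
  intro a b h
  by_contra! hlt
  rcases Nat.eq_zero_or_pos a with rfl | ha
  · have := h 1
    simp at this
    omega
  have hb : ∀ j, a ^ j * (a + j) ≤ a * (a + 1) ^ j := by
    intro j
    induction j with
    | zero => simp
    | succ j ih =>
      calc a ^ (j + 1) * (a + (j + 1)) ≤ a ^ j * (a + j) * (a + 1) := by
            rw [pow_succ]; nlinarith [Nat.zero_le (a ^ j * j)]
        _ ≤ a * (a + 1) ^ j * (a + 1) := Nat.mul_le_mul_right _ ih
        _ = a * (a + 1) ^ (j + 1) := by ring
  let j := a * C + 1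
  have h3 : (a + 1) ^ j ≤ C * a ^ j := (Nat.pow_le_pow_left hlt j).trans (h j)
  have h4 : a ^ j * (a + j) ≤ a ^ j * (a * C) :=
    (hb j).trans ((Nat.mul_le_mul_left a h3).trans (le_of_eq (by ring)))
  have h5 := Nat.le_of_mul_le_mul_left h4 (pow_pos ha j)
  simp only [j] at h5
  omega

namespace AbData

variable {K : Type u} [Field K] (X : AbData K)

/-- The rational `n`-torsion. -/
def torsion (n : ℕ) : AddSubgroup (X.Pt K) := (nsmulAddMonoidHom n).ker

theorem mem_torsion {n : ℕ} {x : X.Pt K} : x ∈ X.torsion n ↔ n • x = 0 := Iff.rfl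

theorem natCard_torsion_one : Nat.card (X.torsion 1) = 1 := by
  have : X.torsion 1 = ⊥ := by
    ext x; simp [mem_torsion]
  rw [this]; simp

variable [IsAlgClosed K]

theorem natCard_torsion_mul {a b : ℕ} (ha : (a : K) ≠ 0) :
    Nat.card (X.torsion (a * b)) = Nat.card (X.torsion a) * Nat.card (X.torsion b) := by
  let ψ : X.torsion (a * b) →+ X.torsion b :=
    { toFun := fun x => ⟨a • x.1, by
        rw [mem_torsion, ← mul_nsmul', mul_comm]
        exact x.2⟩
      map_zero' := Subtype.ext (nsmul_zero a)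
      map_add' := fun x y => Subtype.ext (nsmul_add x.1 y.1 a) }
  have hψ : Function.Surjective ψ := fun y => by
    obtain ⟨x, hx⟩ := X.nsmul_surjective ha (Ω := K) y.1
    simp only at hx
    refine ⟨⟨x, ?_⟩, Subtype.ext hx⟩
    rw [mem_torsion, mul_comm, mul_nsmul', hx]
    exact y.2
  rw [AddSubgroup.card_eq_card_quotient_mul_card_addSubgroup ψ.ker,
    Nat.card_congr (QuotientAddGroup.quotientKerEquivOfSurjective ψ hψ).toEquiv, mul_comm]
  congr 1
  refine Nat.card_congr
    { toFun := fun x => ⟨x.1.1, congrArg Subtype.val x.2⟩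
      invFun := fun x => ⟨⟨x.1, by
        rw [mem_torsion, mul_comm, mul_nsmul', show a • x.1 = 0 from x.2, nsmul_zero]⟩,
        Subtype.ext x.2⟩
      left_inv := fun x => rfl
      right_inv := fun x => rfl }

theorem natCard_torsion_pow {n : ℕ} (hn : (n : K) ≠ 0) (j : ℕ) :
    Nat.card (X.torsion (n ^ j)) = Nat.card (X.torsion n) ^ j := by
  induction j with
  | zero => rw [pow_zero, pow_zero, X.natCard_torsion_one]
  | succ j ih => rw [pow_succ', pow_succ', X.natCard_torsion_mul hn, ih]

/-- Two sided bounds of the right order give the exact count. -/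
theorem natCard_torsion_eq_of_bounds {C : ℕ}
    (hupper : ∀ n : ℕ, (n : K) ≠ 0 → Nat.card (X.torsion n) ≤ C * n ^ (2 * X.dim))
    (hlower : ∀ n : ℕ, (n : K) ≠ 0 → n ^ (2 * X.dim) ≤ C * Nat.card (X.torsion n))
    {n : ℕ} (hn : (n : K) ≠ 0) : Nat.card (X.torsion n) = n ^ (2 * X.dim) := by
  have hnj : ∀ j : ℕ, ((n ^ j : ℕ) : K) ≠ 0 := fun j => by
    rw [Nat.cast_pow]; exact pow_ne_zero j hn
  refine eq_of_pow_bounds (C := C) (fun j => ?_) fun j => ?_
  · rw [← X.natCard_torsion_pow hn, ← pow_mul, mul_comm (2 * X.dim) j, pow_mul]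
    exact hupper _ (hnj j)
  · rw [← X.natCard_torsion_pow hn, ← pow_mul, mul_comm (2 * X.dim) j, pow_mul]
    exact hlower _ (hnj j)

omit [IsAlgClosed K] in
theorem natCard_isTorsionPoint (n : ℕ) :
    Nat.card {x : SchemeHomOver (𝟙 (Spec (CommRingCat.of K))) X.str //
      X.law.IsTorsionPoint (𝟙 (Spec (CommRingCat.of K))) n x} = Nat.card (X.torsion n) := by
  have key : ∀ (t : Spec (CommRingCat.of K) ⟶ Spec (CommRingCat.of K)), t = specStr K K →
      Nat.card {x : SchemeHomOver t X.str // X.law.IsTorsionPoint t n x} =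
        Nat.card (X.torsion n) := by
    rintro t rfl
    refine Nat.card_congr (Equiv.subtypeEquiv (Equiv.refl _) fun x => ?_)
    rw [RelativeGroupLaw.isTorsionPoint_def, X.law_nsmul_eq n x]
    rfl
  exact key _ specStr_self.symm

end AbData

end Fermat.Agent.AbVar
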