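import Fermat.Agent.AbVar.Scheme.Morphism
import Fermat.Agent.AbVar.Height.Basic

/-!
# Pole bounds, jets and parameters for counting torsion points
-/

set_option autoImplicit false

noncomputable section

universe u

open CategoryTheory CategoryTheory.Limits AlgebraicGeometry NeronModelInfra GoodReductionJacobian
open AlgebraicCurve IsLocalRing
open scoped Classical

namespace Fermat.Agent.AbVar

/-- A function with poles bounded by `E` vanishing to too high order is zero. -/
theorem eq_zero_of_mem_riemannRoch_of_ordGe {k F : Type*} [Field k] [Field F] [Algebra k F]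
    [FF.IsFunctionField k F] {E : Divisor k F} (hE : 0 ≤ E) {f : F}
    (hf : f ∈ riemannRochSpace E) (T : Finset (Place k F)) (m : Place k F → ℕ)
    (hT : ∀ P ∈ T, f ∈ FF.ordGe P (m P))
    (hlt : Divisor.degree E < ∑ P ∈ T, (m P : ℤ) * P.deg) : f = 0 := by
  let E' : Divisor k F := E - ∑ P ∈ T, Finsupp.single P ((m P : ℤ) + E P)
  have happ : ∀ P, E' P = if P ∈ T then -(m P : ℤ) else E P := by
    intro P
    simp only [E', Finsupp.sub_apply, Finsupp.finsetSum_apply, Finsupp.single_apply,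
      Finset.sum_ite_eq']
    split_ifs <;> ring
  have hdeg : Divisor.degree E' < 0 := by
    simp only [E', map_sub, map_sum, Divisor.degree_single]
    have : ∑ P ∈ T, ((m P : ℤ) * P.deg) ≤ ∑ P ∈ T, ((m P : ℤ) + E P) * P.deg :=
      Finset.sum_le_sum fun P _ => mul_le_mul_of_nonneg_right
        (le_add_of_nonneg_right (Finsupp.le_def.mp hE P)) (Int.natCast_nonneg _)
    omega
  have hfm : f ∈ riemannRochSpace E' := by
    rw [FF.mem_riemannRochSpace'] at hf ⊢
    intro P
    rw [happ]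
    split_ifs with h
    · rw [neg_neg]; exact hT P h
    · exact hf P
  have h0 := FF.ell_eq_zero_of_degree_neg (K := k) hdeg
  have h1 : Module.finrank k (riemannRochSpace E') = 0 := by
    unfold FF.ell at h0; exact_mod_cast h0
  exact congrArg Subtype.val
    ((finrank_zero_iff_forall_zero (K := k) (V := riemannRochSpace E')).mp h1 ⟨f, hfm⟩)

theorem mul_mem_riemannRochSpace {k F : Type*} [Field k] [Field F] [Algebra k F]
    [FF.IsFunctionField k F] {D E : Divisor k F} {f g : F} (hf : f ∈ riemannRochSpace D)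
    (hg : g ∈ riemannRochSpace E) : f * g ∈ riemannRochSpace (D + E) := by
  rw [FF.mem_riemannRochSpace'] at hf hg ⊢
  intro P
  rw [Finsupp.add_apply, neg_add]
  exact FF.mul_mem_ordGe P (hf P) (hg P)

namespace AbData

variable {K : Type u} [Field K] [IsAlgClosed K] {X : AbData K}

namespace CartierData

variable (D : X.CartierData)

/-- Functions with denominators bounded by a multiple of the Cartier data. -/
def denSpace (N : ℕ) : Submodule K X.Fun where
  carrier := {h | ∀ z, h * D.gen z ^ N ∈ X.loc z}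
  add_mem' ha hb z := by rw [add_mul]; exact add_mem (ha z) (hb z)
  zero_mem' z := by rw [zero_mul]; exact zero_mem _
  smul_mem' c h hh z := by rw [smul_mul_assoc]; exact Subalgebra.smul_mem _ (hh z) c

theorem mem_denSpace {N : ℕ} {h : X.Fun} : h ∈ D.denSpace N ↔ ∀ z, h * D.gen z ^ N ∈ X.loc z :=
  Iff.rfl

theorem algebraMap_mem_denSpace (c : K) (N : ℕ) : algebraMap K X.Fun c ∈ D.denSpace N :=
  fun z => mul_mem (Subalgebra.algebraMap_mem _ c) (pow_mem (D.gen_mem z) N)

theorem denSpace_mono {M N : ℕ} (h : M ≤ N) : D.denSpace M ≤ D.denSpace N := fun f hf z => by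
  rw [← Nat.add_sub_cancel' h, pow_add, ← mul_assoc]
  exact mul_mem (hf z) (pow_mem (D.gen_mem z) _)

theorem mul_mem_denSpace {M N : ℕ} {a b : X.Fun} (ha : a ∈ D.denSpace M) (hb : b ∈ D.denSpace N) :
    a * b ∈ D.denSpace (M + N) := fun z => by
  rw [pow_add, mul_mul_mul_comm]
  exact mul_mem (ha z) (hb z)

theorem prod_mem_denSpace {ι : Type*} (s : Finset ι) {f : ι → X.Fun} {n : ι → ℕ}
    (h : ∀ i ∈ s, f i ∈ D.denSpace (n i)) : ∏ i ∈ s, f i ∈ D.denSpace (∑ i ∈ s, n i) := by
  induction s using Finset.induction with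
  | empty => simpa using D.algebraMap_mem_denSpace 1 0
  | @insert i s hi ih =>
    rw [Finset.prod_insert hi, Finset.sum_insert hi]
    exact D.mul_mem_denSpace (h i (Finset.mem_insert_self _ _))
      (ih fun j hj => h j (Finset.mem_insert_of_mem hj))

theorem pow_mem_denSpace {N : ℕ} {a : X.Fun} (ha : a ∈ D.denSpace N) (m : ℕ) :
    a ^ m ∈ D.denSpace (m * N) := by
  simpa using D.prod_mem_denSpace (Finset.range m) (f := fun _ => a) (n := fun _ => N) fun _ _ => ha

variable {k F : Type u} [Field k] [IsAlgClosed k] [Algebra K k] [Field F] [Algebra k F]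
  [Algebra K F] [IsScalarTower K k F] [FF.IsFunctionField k F]

theorem val_mem_riemannRochSpace {x : X.Pt F} (hx : X.img x = genericPoint X.A) {N : ℕ}
    {h : X.Fun} (hh : h ∈ D.denSpace N) :
    X.val x h ∈ riemannRochSpace (N • D.effPull k hx) := by
  rw [FF.mem_riemannRochSpace']
  intro P
  rw [Finsupp.smul_apply, D.effPull_apply]
  set w := X.img (redPt X P x)
  have hm' := X.loc_le_of_specializes (img_specializes_redPt P X x) (hh w)
  obtain ⟨h1, -⟩ := ev_redPt P X x (hh w) hm'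
  rw [← X.val_eq hm'] at h1
  rcases eq_or_ne h 0 with rfl | h0
  · rw [show X.val x 0 = 0 from (X.genEval hx).map_zero]
    exact zero_mem _
  refine FF.mem_ordGe_of_le P ?_
  have h2 := FF.ord_nonneg P h1
  rw [show X.val x (h * D.gen w ^ N) = X.val x h * X.val x (D.gen w) ^ N by
        show X.genEval hx (h * D.gen w ^ N) = X.genEval hx h * X.genEval hx (D.gen w) ^ N
        rw [map_mul, map_pow],
    P.ord_mul (X.val_ne_zero_of_generic hx h0)
      (pow_ne_zero _ (X.val_ne_zero_of_generic hx (D.gen_ne_zero _))), FF.ord_pow] at h2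
  rw [nsmul_eq_mul]
  omega

theorem degree_nsmul_effPull {x : X.Pt F} (hx : X.img x = genericPoint X.A) (N : ℕ) :
    Divisor.degree (N • D.effPull k hx) = N * D.ht k x := by
  rw [map_nsmul, D.degree_effPull, nsmul_eq_mul]

theorem nsmul_effPull_nonneg {x : X.Pt F} (hx : X.img x = genericPoint X.A) (N : ℕ) :
    0 ≤ N • D.effPull k hx := nsmul_nonneg (D.effPull_nonneg hx) N

end CartierData

variable {k F : Type u} [Field k] [IsAlgClosed k] [Algebra K k] [Field F] [Algebra k F]
  [Algebra K F] [IsScalarTower K k F] [FF.IsFunctionField k F]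

variable (X) in
omit [IsAlgClosed K] in
theorem img_specializes_zero {x : X.Pt F} {P : Place k F} (hx : redPt X P x = 0) :
    X.img x ⤳ X.img (0 : X.Pt K) := by
  have h := img_specializes_redPt P X x
  rwa [hx, show (0 : X.Pt k) = X.const k 0 from (map_zero _).symm, X.img_const] at h

/-- The order of vanishing along a point through the origin. -/
theorem val_mem_ordGe_of_mem_pow {x : X.Pt F} {P : Place k F} (hx : redPt X P x = 0) {e : ℕ}
    (he : ∀ r ∈ maximalIdeal (X.loc (X.img (0 : X.Pt K))), X.val x (r : X.Fun) ∈ FF.ordGe P e)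
    {M : ℕ} {r : X.loc (X.img (0 : X.Pt K))} (hr : r ∈ maximalIdeal _ ^ M) :
    X.val x (r : X.Fun) ∈ FF.ordGe P ((M * e : ℕ) : ℤ) := by
  have hs := X.img_specializes_zero hx
  let φ : X.loc (X.img (0 : X.Pt K)) →ₐ[K] F :=
    (X.ev x).comp (Subalgebra.inclusion (X.loc_le_of_specializes hs))
  have hφ : ∀ r : X.loc (X.img (0 : X.Pt K)), X.val x (r : X.Fun) = φ r := fun r => X.val_eq (X.loc_le_of_specializes hs r.2)
  have hint : ∀ r, φ r ∈ FF.ordGe P 0 := by
    intro r
    rw [FF.mem_ordGe_zero, ← hφ]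
    have h0 : (r : X.Fun) ∈ X.loc (X.img (redPt X P x)) := by
      rw [hx, show (0 : X.Pt k) = X.const k 0 from (map_zero _).symm, X.img_const]
      exact r.2
    obtain ⟨h1, -⟩ := ev_redPt P X x h0 (X.loc_le_of_specializes hs r.2)
    rw [X.val_eq (X.loc_le_of_specializes hs r.2)]
    exact h1
  induction M generalizing r with
  | zero => simpa [hφ] using hint r
  | succ M ih =>
    rw [hφ]
    rw [pow_succ] at hr
    refine Submodule.mul_induction_on hr (fun a ha b hb => ?_) fun a b ha hb => ?_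
    · rw [map_mul, Nat.succ_mul, Nat.cast_add]
      exact FF.mul_mem_ordGe P (hφ a ▸ ih ha) (hφ b ▸ he b hb)
    · rw [map_add]; exact add_mem ha hb

/-- Values at `n x + a` are values at `x` of pullbacks, near the origin. -/
theorem val_act {Ω : Type u} [Field Ω] [Algebra K Ω] (n : ℕ) (a p : X.Pt K) {x : X.Pt Ω}
    (hs : X.img x ⤳ X.img p) (h : X.loc (X.img (X.act n a p))) :
    X.val x (X.pull n a p h : X.Fun) = X.val (X.act n a x) h := by
  let e : X.loc (X.img p) →ₐ[K] Ω :=
    (X.ev x).comp (Subalgebra.inclusion (X.loc_le_of_specializes hs))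
  have hxe : X.map e (X.locPt (X.img p)) = x := by
    rw [← map_map, X.map_inclusion_locPt hs, eq_map_locPt]
  have hP : (h : X.Fun) ∈ X.loc (X.img (X.act n a (X.locPt (X.img p)))) :=
    X.mem_loc_congr (X.img_act_locPt n a p).symm h.2
  have hm : (h : X.Fun) ∈ X.loc (X.img (X.act n a x)) := by
    have := X.mem_loc_map e _ hP
    rwa [map_act, hxe] at this
  rw [X.val_eq (X.loc_le_of_specializes hs (X.pull n a p h).2), X.val_eq hm]
  have e1 := X.ev_map e (X.act n a (X.locPt (X.img p))) hP (X.mem_loc_map _ _ hP)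
  refine e1.symm.trans (X.ev_congr ?_ _ hm)
  rw [map_act, hxe]

variable (X) in
/-- Interpolation by products of coordinates. -/
theorem exists_interp (D : X.CartierData) {U : X.A.Opens} (S : Finset X.Fun)
    (hSU : ∀ h ∈ S, ∀ z ∈ U, h ∈ X.loc z) (hden : ∀ h ∈ S, h ∈ D.denSpace 1)
    (hsep : ∀ p q : X.Pt K, X.img p ∈ U → X.img q ∈ U →
      (∀ h ∈ S, ∀ hp hq, X.ev p ⟨h, hp⟩ = X.ev q ⟨h, hq⟩) → p = q)
    (T : Finset (X.Pt K)) (hT : ∀ p ∈ T, X.img p ∈ U) :
    ∃ e : X.Pt K → X.Fun, ∀ q ∈ T, e q ∈ D.denSpace T.card ∧ (∀ z ∈ U, e q ∈ X.loc z) ∧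
      ∀ p ∈ T, X.val p (e q) = if p = q then 1 else 0 := by
  have hpair : ∀ p ∈ T, ∀ q ∈ T, p ≠ q → ∃ h ∈ S, X.val p h ≠ X.val q h := by
    intro p hp q hq hne
    by_contra! hcon
    refine hne (hsep p q (hT p hp) (hT q hq) fun h hh hp' hq' => ?_)
    rw [← X.val_eq, ← X.val_eq]
    exact hcon h hh
  choose! f hfS hf using hpair
  refine ⟨fun q => ∏ p ∈ T.erase q, (X.val q (f p q) - X.val p (f p q))⁻¹ •
    (f p q - algebraMap K X.Fun (X.val p (f p q))), fun q hq => ⟨?_, fun z hz => ?_, fun r hr => ?_⟩⟩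
  · refine D.denSpace_mono ?_ (D.prod_mem_denSpace _ (n := fun _ => 1) fun p hp => ?_)
    · simpa using Finset.card_erase_le
    · obtain ⟨hne, hpT⟩ := Finset.mem_erase.mp hp
      exact Submodule.smul_mem _ _
        (sub_mem (hden _ (hfS p hpT q hq hne)) (D.algebraMap_mem_denSpace _ _))
  · refine Subalgebra.prod_mem _ fun p hp => ?_
    obtain ⟨hne, hpT⟩ := Finset.mem_erase.mp hp
    exact Subalgebra.smul_mem _ (sub_mem (hSU _ (hfS p hpT q hq hne) z hz)
      (Subalgebra.algebraMap_mem _ _)) _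
  · let g : X.Pt K → X.loc (X.img r) := fun p =>
      if h : p ∈ T.erase q then ⟨(X.val q (f p q) - X.val p (f p q))⁻¹ •
          (f p q - algebraMap K X.Fun (X.val p (f p q))), by
        obtain ⟨hne, hpT⟩ := Finset.mem_erase.mp h
        exact Subalgebra.smul_mem _ (sub_mem (hSU _ (hfS p hpT q hq hne) _ (hT r hr))
          (Subalgebra.algebraMap_mem _ _)) _⟩ else 1
    have hg : ∀ p ∈ T.erase q, X.ev r (g p) =
        (X.val q (f p q) - X.val p (f p q))⁻¹ * (X.val r (f p q) - X.val p (f p q)) := by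
      intro p hp
      obtain ⟨hne, hpT⟩ := Finset.mem_erase.mp hp
      have hm := hSU _ (hfS p hpT q hq hne) _ (hT r hr)
      simp only [g, dif_pos hp]
      rw [show (⟨(X.val q (f p q) - X.val p (f p q))⁻¹ •
          (f p q - algebraMap K X.Fun (X.val p (f p q))), _⟩ : X.loc (X.img r)) =
          (X.val q (f p q) - X.val p (f p q))⁻¹ •
            ((⟨f p q, hm⟩ : X.loc (X.img r)) - algebraMap K _ (X.val p (f p q))) from Subtype.ext rfl,
        map_smul, map_sub, AlgHom.commutes, X.val_eq hm, smul_eq_mul]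
      rfl
    have hcoe : (∏ p ∈ T.erase q, (X.val q (f p q) - X.val p (f p q))⁻¹ •
        (f p q - algebraMap K X.Fun (X.val p (f p q)))) =
        ((∏ p ∈ T.erase q, g p : X.loc (X.img r)) : X.Fun) := by
      rw [SubmonoidClass.coe_finsetProd]
      exact Finset.prod_congr rfl fun p hp => by simp only [g, dif_pos hp]
    simp only []
    rw [hcoe, X.val_eq (∏ p ∈ T.erase q, g p).2, Subtype.coe_eta, map_prod, Finset.prod_congr rfl hg]
    split_ifs with h
    · subst h
      refine Finset.prod_eq_one fun p hp => inv_mul_cancel₀ (sub_ne_zero.mpr ?_)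
      obtain ⟨hne, hpT⟩ := Finset.mem_erase.mp hp
      exact (hf p hpT r hq hne).symm
    · exact Finset.prod_eq_zero (Finset.mem_erase.mpr ⟨h, hr⟩) (by rw [sub_self, mul_zero])

/-- Parameters at the origin which are combinations of the coordinates. -/
theorem exists_params (D : X.CartierData) {U : X.A.Opens} (S : Finset X.Fun)
    (h0U : X.img (0 : X.Pt K) ∈ U) (hSU : ∀ h ∈ S, ∀ z ∈ U, h ∈ X.loc z)
    (hden : ∀ h ∈ S, h ∈ D.denSpace 1)
    (hmax : ∀ p : X.Pt K, X.img p ∈ U → ∀ hS : ∀ h ∈ S, h ∈ X.loc (X.img p),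
      maximalIdeal (X.loc (X.img p)) = Ideal.span (Set.range fun h : S =>
        (⟨h.1, hS h.1 h.2⟩ : X.loc (X.img p)) -
          algebraMap K _ (X.ev p ⟨h.1, hS h.1 h.2⟩)))
    (E : Expansion K (X.loc (X.img (0 : X.Pt K))) X.dim) :
    ∃ y : Fin X.dim → X.Fun, (∀ i, y i ∈ D.denSpace 1) ∧ (∀ i, ∀ z ∈ U, y i ∈ X.loc z) ∧
      ∀ i (h : y i ∈ X.loc (X.img (0 : X.Pt K))),
        LowZero 2 (E.σ ⟨y i, h⟩ - MvPowerSeries.X i) := by
  have hS : ∀ h ∈ S, h ∈ X.loc (X.img (0 : X.Pt K)) := fun h hh => hSU h hh _ h0U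
  have hm := hmax 0 h0U hS
  have ht : ∀ i, ∃ c : S → X.loc (X.img (0 : X.Pt K)), ∑ h, c h *
      ((⟨h.1, hS h.1 h.2⟩ : X.loc (X.img (0 : X.Pt K))) -
        algebraMap K _ (X.ev (0 : X.Pt K) ⟨h.1, hS h.1 h.2⟩)) = E.t i := fun i =>
    Ideal.mem_span_range_iff_exists_fun.mp (hm ▸ E.span_t ▸ Ideal.subset_span ⟨i, rfl⟩)
  choose c hc using ht
  refine ⟨fun i => ∑ h : S, X.ev (0 : X.Pt K) (c i h) •
    (h.1 - algebraMap K X.Fun (X.ev (0 : X.Pt K) ⟨h.1, hS h.1 h.2⟩)),
    fun i => Submodule.sum_mem _ fun h _ => Submodule.smul_mem _ _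
      (sub_mem (hden h h.2) (D.algebraMap_mem_denSpace _ _)),
    fun i z hz => Subalgebra.sum_mem _ fun h _ => Subalgebra.smul_mem _
      (sub_mem (hSU h h.2 z hz) (Subalgebra.algebraMap_mem _ _)) _, fun i hy => ?_⟩
  set u : S → X.loc (X.img (0 : X.Pt K)) := fun h =>
    (⟨h.1, hS h.1 h.2⟩ : X.loc (X.img (0 : X.Pt K))) -
      algebraMap K _ (X.ev (0 : X.Pt K) ⟨h.1, hS h.1 h.2⟩)
  have hu : ∀ h, u h ∈ maximalIdeal (X.loc (X.img (0 : X.Pt K))) := fun h =>
    hm ▸ Ideal.subset_span ⟨h, rfl⟩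
  have heq : (⟨_, hy⟩ : X.loc (X.img (0 : X.Pt K))) = ∑ h, X.ev (0 : X.Pt K) (c i h) • u h := by
    apply Subtype.ext
    rw [AddSubmonoidClass.coe_finsetSum]
    rfl
  have hdiff : (⟨_, hy⟩ : X.loc (X.img (0 : X.Pt K))) - E.t i ∈
      maximalIdeal (X.loc (X.img (0 : X.Pt K))) ^ 2 := by
    rw [heq, ← hc i, ← Finset.sum_sub_distrib]
    refine Ideal.sum_mem _ fun h _ => ?_
    rw [Algebra.smul_def, ← sub_mul, sq]
    refine Submodule.mul_mem_mul ?_ (hu h)
    rw [mem_maximalIdeal, mem_nonunits_iff, ← X.isUnit_ev_iff]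
    simp
  intro α hα
  have h1 := (E.mem_pow_iff _ 2).mp hdiff α hα
  rw [map_sub, map_sub, sub_eq_zero] at h1
  rw [map_sub, h1, lowZero_iff_sub.mp (E.σ_t i) α hα, sub_self]

/-- Distinct monomials in parameters are independent modulo higher order. -/
theorem eq_zero_of_sum_mem_pow (E : Expansion K (X.loc (X.img (0 : X.Pt K))) X.dim)
    (t : Fin X.dim → X.loc (X.img (0 : X.Pt K)))
    (ht : ∀ i, LowZero 2 (E.σ (t i) - MvPowerSeries.X i)) (j : ℕ)
    (A : Finset (Fin X.dim →₀ ℕ)) (hA : ∀ α ∈ A, α.degree = j) (c : (Fin X.dim →₀ ℕ) → K)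
    (h : ∑ α ∈ A, c α • tMon t α ∈ maximalIdeal (X.loc (X.img (0 : X.Pt K))) ^ (j + 1)) :
    ∀ α ∈ A, c α = 0 := by
  intro β hβ
  have h1 := (E.mem_pow_iff _ (j + 1)).mp h β (by rw [hA β hβ]; omega)
  rw [map_sum, map_sum, Finset.sum_eq_single β] at h1
  · rw [map_smul, map_smul,
      lowZero_iff_sub.mp (lowZero_σ_tMon ht β) β (Nat.lt_succ_self _),
      MvPowerSeries.coeff_monomial, if_pos rfl, smul_eq_mul, mul_one] at h1
    exact h1
  · intro α hα hne
    rw [map_smul, map_smul,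
      lowZero_iff_sub.mp (lowZero_σ_tMon ht α) β (by rw [hA α hα, hA β hβ]; omega),
      MvPowerSeries.coeff_monomial, if_neg hne.symm, smul_zero]
  · exact fun hn => absurd hβ hn

end AbData

end Fermat.Agent.AbVar
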