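import Fermat.Agent.AbVar.Scheme.Morphism
import Fermat.Agent.AbVar.Height.Val

/-!
# Points whose multiple is dominant are dominant
-/

set_option autoImplicit false

noncomputable section

universe u

open CategoryTheory CategoryTheory.Limits AlgebraicGeometry NeronModelInfra GoodReductionJacobian
open IsLocalRing
open scoped Classical

namespace Fermat.Agent.AbVar

/-- An endomorphism of a finitely generated field extension is algebraic. -/
theorem isAlgebraic_fieldRange {K F : Type u} [Field K] [Field F] [Algebra K F] (s : Finset F)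
    (hs : IntermediateField.adjoin K (s : Set F) = ⊤) (θ : F →ₐ[K] F) :
    Algebra.IsAlgebraic θ.fieldRange F := by
  have halg : Algebra.IsAlgebraic (Algebra.adjoin K (s : Set F)) F := ⟨fun f => by
    have hf : f ∈ IntermediateField.adjoin K (s : Set F) := by rw [hs]; trivial
    obtain ⟨r, hr, d, hd, rfl⟩ := IntermediateField.mem_adjoin_iff_div.mp hf
    rcases eq_or_ne d 0 with rfl | hd0
    · rw [div_zero]; exact isAlgebraic_zero
    refine ⟨Polynomial.C (⟨d, hd⟩ : Algebra.adjoin K (s : Set F)) * Polynomial.X -
      Polynomial.C ⟨r, hr⟩, fun h => hd0 ?_, ?_⟩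
    · have h1 := congrArg (fun p => p.coeff 1) h
      simp at h1
      exact congrArg Subtype.val h1
    · simp only [map_sub, map_mul, Polynomial.aeval_C, Polynomial.aeval_X]
      show d * (r / d) - r = 0
      rw [mul_div_cancel₀ _ hd0, sub_self]⟩
  obtain ⟨t, hts, ht⟩ := exists_isTranscendenceBasis_subset (R := K) (s : Set F)
  have : Finite t := (s.finite_toSet.subset hts).to_subtype
  have hx : AlgebraicIndependent K (fun i : t => θ i) :=
    ht.1.map (f := θ) θ.injective.injOn
  have hb : IsTranscendenceBasis K (fun i : t => θ i) :=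
    hx.isTranscendenceBasis_of_trdeg_le_of_finite ht.cardinalMk_eq_trdeg.ge
  have := hb.isAlgebraic_field
  have hle : IntermediateField.adjoin K (Set.range fun i : t => θ i) ≤ θ.fieldRange :=
    IntermediateField.adjoin_le_iff.mpr (by rintro _ ⟨i, rfl⟩; exact ⟨i, rfl⟩)
  let : Algebra (IntermediateField.adjoin K (Set.range fun i : t => θ i)) θ.fieldRange :=
    (IntermediateField.inclusion hle).toRingHom.toAlgebra
  have : IsScalarTower (IntermediateField.adjoin K (Set.range fun i : t => θ i)) θ.fieldRange F :=
    IsScalarTower.of_algebraMap_eq fun _ => rfl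
  exact Algebra.IsAlgebraic.extendScalars
    (R := IntermediateField.adjoin K (Set.range fun i : t => θ i))
    (IntermediateField.inclusion_injective hle)

namespace AbData

variable {K : Type u} [Field K] [IsAlgClosed K] (X : AbData K)

theorem exists_adjoin_eq_top :
    ∃ s : Finset X.Fun, IntermediateField.adjoin K (s : Set X.Fun) = ⊤ := by
  obtain ⟨c, hc⟩ := X.exists_chart (genericPoint X.A)
  obtain ⟨G, hG⟩ := c.exists_finset
  refine ⟨G.image (c.sec hc), ?_⟩
  have hsec : ∀ r, c.sec hc r ∈ IntermediateField.adjoin K ((G.image (c.sec hc) : Finset X.Fun) : Set X.Fun) := by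
    intro r
    let := c.algebra
    have hr : r ∈ Algebra.adjoin K (G : Set Γ(X.A, c.U)) := by rw [hG]; trivial
    induction hr using Algebra.adjoin_induction with
    | mem x hx => exact IntermediateField.subset_adjoin _ _ (by simp only [Finset.coe_image]; exact ⟨x, hx, rfl⟩)
    | algebraMap a =>
      have e : c.sec hc (c.hom a) = algebraMap K X.Fun a := by
        rw [c.sec_eq hc, c.germ_hom hc, X.toFun_cst]
      exact e ▸ IntermediateField.algebraMap_mem _ a
    | add x y _ _ hx hy => rw [map_add]; exact add_mem hx hy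
    | mul x y _ _ hx hy => rw [map_mul]; exact mul_mem hx hy
  refine eq_top_iff.mpr fun f _ => ?_
  have hf : f ∈ X.loc (genericPoint X.A) := by rw [X.loc_genericPoint]; trivial
  obtain ⟨r, d, hd, hrd⟩ := c.exists_sec_div hc hf
  rw [show f = c.sec hc r / c.sec hc d from
    eq_div_of_mul_eq (c.sec_ne_zero hc hd) hrd]
  exact div_mem (hsec r) (hsec d)

variable {Ω : Type u} [Field Ω] [Algebra K Ω]

/-- If `n x + a` is dominant then so is `x`. -/
theorem img_eq_genericPoint_of_act {n : ℕ} (hn : (n : K) ≠ 0) (a : X.Pt K) (x : X.Pt Ω)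
    (hx : X.img (X.act n a x) = genericPoint X.A) : X.img x = genericPoint X.A := by
  obtain ⟨p, -, hzp⟩ := X.exists_pt_specializes (U := ⊤) (z := X.img x) trivial
  let e : X.loc (X.img p) →ₐ[K] Ω :=
    (X.ev x).comp (Subalgebra.inclusion (X.loc_le_of_specializes hzp))
  have hxe : X.map e (X.locPt (X.img p)) = x := by
    rw [← map_map, X.map_inclusion_locPt hzp, eq_map_locPt]
  have hgen := X.img_act_genPt hn a
  let θ : X.Fun →ₐ[K] X.Fun := X.genEval hgen
  -- evaluation at `n x + a` is evaluation at `x` of the pullback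
  have hpull : ∀ r : X.loc (X.img (X.act n a p)),
      e (X.pull n a p r) = X.val (X.act n a x) r := by
    intro r
    have hP : (r : X.Fun) ∈ X.loc (X.img (X.act n a (X.locPt (X.img p)))) :=
      X.mem_loc_congr (X.img_act_locPt n a p).symm r.2
    have hm : (r : X.Fun) ∈ X.loc (X.img (X.act n a x)) := by
      rw [hx, X.loc_genericPoint]; trivial
    rw [X.val_eq hm]
    have e1 := X.ev_map e (X.act n a (X.locPt (X.img p))) hP (X.mem_loc_map _ _ hP)
    refine e1.symm.trans (X.ev_congr ?_ _ hm)
    rw [map_act, hxe]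
  have hinj : ∀ r : X.loc (X.img (X.act n a p)), e (X.pull n a p r) = 0 → r = 0 := by
    intro r hr
    rw [hpull] at hr
    by_contra h0
    exact X.val_ne_zero_of_generic hx (fun h => h0 (Subtype.ext h)) hr
  -- the kernel of `e` is zero, as functions are algebraic over pullbacks
  have hker : ∀ r : X.loc (X.img p), e r = 0 → r = 0 := by
    intro r hr
    by_contra h0
    obtain ⟨s, hs⟩ := X.exists_adjoin_eq_top
    have halg := isAlgebraic_fieldRange s hs θ
    obtain ⟨P, hP0, hP⟩ := Algebra.IsAlgebraic.isAlgebraic (R := θ.fieldRange) (r : X.Fun)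
    -- a common denominator
    let B := fun i => P.coeff i
    have hB : ∀ i, ∃ f : X.Fun, θ f = (B i : X.Fun) := fun i => (B i).2
    choose f hf using hB
    obtain ⟨d, hd⟩ := IsLocalization.exist_integer_multiples_of_finset
      (nonZeroDivisors (X.A.presheaf.stalk (X.img (X.act n a p))))
      ((Finset.range (P.natDegree + 1)).image f)
    let d' : X.loc (X.img (X.act n a p)) := X.stalkEquiv _ d
    have hd0 : d' ≠ 0 := fun h => nonZeroDivisors.ne_zero d.2 (by
      apply (X.stalkEquiv _).injective; rw [map_zero]; exact h)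
    have hint : ∀ i ∈ Finset.range (P.natDegree + 1), ∃ q : X.loc (X.img (X.act n a p)),
        (q : X.Fun) = d' * f i := by
      intro i hi
      obtain ⟨q, hq⟩ := hd (f i) (Finset.mem_image_of_mem f hi)
      refine ⟨X.stalkEquiv _ q, hq.trans ?_⟩
      rw [Algebra.smul_def]; rfl
    choose! q hq using hint
    have hq' : ∀ i ∈ Finset.range (P.natDegree + 1),
        (X.pull n a p (q i) : X.Fun) = θ d' * (P.coeff i : X.Fun) := by
      intro i hi
      rw [X.coe_pull, ← X.val_eq, hq i hi]
      show θ (d' * f i) = _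
      rw [map_mul, hf]
    have hsum : ∑ i ∈ Finset.range (P.natDegree + 1), X.pull n a p (q i) * r ^ i = 0 := by
      apply Subtype.ext
      rw [AddSubmonoidClass.coe_finsetSum, ZeroMemClass.coe_zero]
      calc ∑ i ∈ Finset.range (P.natDegree + 1), ((X.pull n a p (q i) * r ^ i : X.loc _) : X.Fun)
          = ∑ i ∈ Finset.range (P.natDegree + 1), θ d' * ((P.coeff i : X.Fun) * (r : X.Fun) ^ i) :=
            Finset.sum_congr rfl fun i hi => by
              push_cast
              rw [hq' i hi, mul_assoc]
        _ = θ d' * Polynomial.aeval (r : X.Fun) P := by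
            rw [Polynomial.aeval_eq_sum_range, Finset.mul_sum]
            rfl
        _ = 0 := by rw [hP, mul_zero]
    -- the lowest nonzero coefficient vanishes at `n x + a`
    have hex : ∃ i, i ∈ Finset.range (P.natDegree + 1) ∧ q i ≠ 0 := by
      refine ⟨P.natDegree, Finset.mem_range.mpr (Nat.lt_succ_self _), fun h => hP0 ?_⟩
      have h1 := hq' P.natDegree (Finset.mem_range.mpr (Nat.lt_succ_self _))
      rw [h, map_zero, ZeroMemClass.coe_zero] at h1
      rcases mul_eq_zero.mp h1.symm with h2 | h2
      · exact absurd ((map_eq_zero θ).mp h2) fun h3 => hd0 (Subtype.ext h3)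
      · exact Polynomial.leadingCoeff_eq_zero.mp (Subtype.ext h2)
    let i₀ := Nat.find hex
    obtain ⟨hi₀, hq0⟩ := Nat.find_spec hex
    have hsplit : r ^ i₀ * ∑ i ∈ Finset.range (P.natDegree + 1),
        (if i₀ ≤ i then X.pull n a p (q i) * r ^ (i - i₀) else 0) = 0 := by
      refine Eq.trans ?_ hsum
      rw [Finset.mul_sum]
      refine Finset.sum_congr rfl fun i hi => ?_
      split_ifs with h
      · rw [mul_left_comm, ← pow_add, Nat.add_sub_cancel' h]
      · have : q i = 0 := by
          by_contra hne
          exact Nat.find_min hex (not_le.mp h) ⟨hi, hne⟩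
        rw [this, map_zero, zero_mul, mul_zero]
    have hrest := (mul_eq_zero.mp hsplit).resolve_left (pow_ne_zero _ h0)
    have h2 := congrArg e hrest
    rw [map_sum, map_zero, Finset.sum_eq_single i₀] at h2
    · rw [if_pos le_rfl, Nat.sub_self, pow_zero, mul_one] at h2
      exact hq0 (hinj _ h2)
    · intro i _ hne
      split_ifs with h
      · rw [map_mul, map_pow, hr, zero_pow (by omega), mul_zero]
      · exact map_zero e
    · exact fun h => absurd hi₀ h
  refine X.img_eq_genericPoint x fun h hh h0 => ?_
  obtain ⟨b, d, hd, hbd⟩ :=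
    IsFractionRing.div_surjective (A := X.A.presheaf.stalk (X.img p)) h
  let B : X.loc (X.img p) := ⟨X.toFun _ b, b, rfl⟩
  let D : X.loc (X.img p) := ⟨X.toFun _ d, d, rfl⟩
  have hD : (D : X.Fun) ≠ 0 := fun h =>
    nonZeroDivisors.ne_zero hd (X.toFun_injective _ (by rw [map_zero]; exact h))
  have hm : h * (D : X.Fun) = B := by rw [← hbd]; exact div_mul_cancel₀ _ hD
  have h1 : e B = X.ev x ⟨h, hh⟩ * e D := by
    show X.ev x _ = X.ev x _ * X.ev x _
    rw [← map_mul]
    exact congrArg _ (Subtype.ext hm.symm)
  rw [h0, zero_mul] at h1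
  rw [hker B h1, ZeroMemClass.coe_zero] at hm
  exact (mul_eq_zero.mp hm).resolve_right hD

end AbData

end Fermat.Agent.AbVar
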