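import Fermat.Agent.AbVar.Scheme.Tangent
import Fermat.Agent.AbVar.Scheme.Affine
import Fermat.Agent.AbVar.Height.Place
import Fermat.Agent.AbVar.LocalAlg.Normalize

/-!
# A generic curve through the origin

The expansion at the origin, restricted to the line through independent transcendentals, gives a
point over the generic point with values in a function field of one variable, reducing to `0`.
-/

set_option autoImplicit false

noncomputable section

universe u

open CategoryTheory CategoryTheory.Limits AlgebraicGeometry NeronModelInfra GoodReductionJacobian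
open IsLocalRing AlgebraicCurve
open scoped IntermediateField

namespace Fermat.Agent.AbVar

section Line

variable {K : Type u} [Field K] {k : Type u} [Field k] [Algebra K k] {g : ℕ} (c : Fin g → k)

theorem hasSubst_line : MvPowerSeries.HasSubst fun i => PowerSeries.C (c i) * PowerSeries.X :=
  MvPowerSeries.hasSubst_of_constantCoeff_zero fun i => by
    show PowerSeries.constantCoeff (PowerSeries.C (c i) * PowerSeries.X) = 0
    simp

/-- The restriction of power series to a line. -/
def lineHom : MvPowerSeries (Fin g) K →ₐ[K] PowerSeries k :=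
  MvPowerSeries.substAlgHom (hasSubst_line c)

theorem lineHom_X (i : Fin g) :
    lineHom (K := K) c (MvPowerSeries.X i) = PowerSeries.C (c i) * PowerSeries.X :=
  MvPowerSeries.substAlgHom_X _ i

theorem coeff_lineHom (p : MvPowerSeries (Fin g) K) (N : ℕ) :
    PowerSeries.coeff N (lineHom c p) =
      ∑ d ∈ Finset.univ.finsuppAntidiag N,
        algebraMap K k (MvPowerSeries.coeff d p) * d.prod (fun i e => c i ^ e) := by
  classical
  have hprod : ∀ d : Fin g →₀ ℕ, (d.prod fun i e => (PowerSeries.C (c i) * PowerSeries.X) ^ e) =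
      PowerSeries.C (d.prod fun i e => c i ^ e) * PowerSeries.X ^ d.degree := fun d => by
    simp only [mul_pow, ← map_pow, Finsupp.prod, Finset.prod_mul_distrib, map_prod,
      Finset.prod_pow_eq_pow_sum]
    rfl
  show MvPowerSeries.coeff _ (MvPowerSeries.substAlgHom (hasSubst_line c) p) = _
  rw [MvPowerSeries.substAlgHom_apply, MvPowerSeries.coeff_subst (hasSubst_line c)]
  have hterm : ∀ d : Fin g →₀ ℕ, MvPowerSeries.coeff (Finsupp.single () N)
      (d.prod fun i e => (PowerSeries.C (c i) * PowerSeries.X) ^ e) =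
      if d.degree = N then d.prod (fun i e => c i ^ e) else 0 := fun d => by
    rw [hprod]
    show PowerSeries.coeff N _ = _
    rw [PowerSeries.coeff_C_mul, PowerSeries.coeff_X_pow]
    simp [eq_comm]
  have hmem : ∀ d : Fin g →₀ ℕ, d ∈ Finset.univ.finsuppAntidiag N ↔ d.degree = N := fun d => by
    simp [Finset.mem_finsuppAntidiag, Finsupp.degree_eq_sum]
  rw [finsum_eq_sum_of_support_subset _ (s := Finset.univ.finsuppAntidiag N) fun d hd => by
    rw [Finset.mem_coe, hmem]
    by_contra hne
    exact hd (by show _ • _ = _; rw [hterm, if_neg hne, smul_zero])]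
  refine Finset.sum_congr rfl fun d hd => ?_
  rw [hterm, if_pos ((hmem d).mp hd), Algebra.smul_def]

theorem constantCoeff_lineHom (p : MvPowerSeries (Fin g) K) :
    PowerSeries.constantCoeff (lineHom c p) = algebraMap K k (MvPowerSeries.constantCoeff p) := by
  classical
  rw [← PowerSeries.coeff_zero_eq_constantCoeff_apply, coeff_lineHom,
    Finset.sum_eq_single (0 : Fin g →₀ ℕ)]
  · simp
  · intro d hd hne
    exact absurd ((Finsupp.degree_eq_zero_iff d).mp (by
      rw [Finsupp.degree_eq_sum]
      exact (Finset.mem_finsuppAntidiag.mp hd).1)) hne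
  · simp

theorem lineHom_injective (hc : AlgebraicIndependent K c) :
    Function.Injective (lineHom (K := K) c) := by
  classical
  refine (injective_iff_map_eq_zero _).mpr fun p hp => MvPowerSeries.ext fun d₀ => ?_
  rw [map_zero]
  let F : MvPolynomial (Fin g) K :=
    ∑ d ∈ Finset.univ.finsuppAntidiag d₀.degree,
      MvPolynomial.monomial d (MvPowerSeries.coeff d p)
  have hF : MvPolynomial.aeval c F = 0 := by
    have h := congrArg (PowerSeries.coeff d₀.degree) hp
    rw [coeff_lineHom, map_zero] at h
    rw [map_sum, ← h]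
    exact Finset.sum_congr rfl fun d _ => MvPolynomial.aeval_monomial _ _ _
  have h0 := congrArg (MvPolynomial.coeff d₀) (hc.eq_zero_of_aeval_eq_zero F hF)
  simpa [F, MvPolynomial.coeff_sum, MvPolynomial.coeff_monomial, Finset.mem_finsuppAntidiag,
    Finsupp.degree_eq_sum] using h0

variable (K k)

/-- The field of fractions of power series. -/
abbrev SerFld : Type u := FractionRing (PowerSeries k)

/-- Power series inside their fractions. -/
def psToFld : PowerSeries k →ₐ[K] SerFld k := IsScalarTower.toAlgHom K (PowerSeries k) (SerFld k)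

/-- The parameter. -/
def serS : SerFld k := algebraMap (PowerSeries k) (SerFld k) PowerSeries.X

/-- The power series as a valuation subring of their fractions. -/
def serInt : ValuationSubring (SerFld k) :=
  { (algebraMap (PowerSeries k) (SerFld k)).range with
    mem_or_inv_mem' := fun f => by
      rcases ValuationRing.isInteger_or_isInteger (PowerSeries k) f with h | h
      · exact Or.inl h
      · exact Or.inr h }

variable {K k}

theorem psToFld_apply (p : PowerSeries k) :
    psToFld K k p = algebraMap (PowerSeries k) (SerFld k) p := rfl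

theorem mem_serInt {f : SerFld k} :
    f ∈ serInt k ↔ ∃ p, algebraMap (PowerSeries k) (SerFld k) p = f := Iff.rfl

theorem algebraMap_ser_injective : Function.Injective (algebraMap (PowerSeries k) (SerFld k)) :=
  IsFractionRing.injective _ _

theorem serS_ne_zero : serS k ≠ 0 :=
  (map_ne_zero_iff _ algebraMap_ser_injective).mpr PowerSeries.X_ne_zero

theorem transcendental_serS : Transcendental k (serS k) := by
  refine transcendental_iff.mpr fun p hp => ?_
  rw [serS, Polynomial.aeval_algebraMap_apply] at hp
  have h : Polynomial.aeval (PowerSeries.X : PowerSeries k) p = (p : PowerSeries k) := by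
    clear hp
    induction p using Polynomial.induction_on' with
    | add a b ha hb => simp [Polynomial.coe_add, ha, hb]
    | monomial n a => simp [← Polynomial.C_mul_X_pow_eq_monomial]
  rw [h] at hp
  exact Polynomial.coe_eq_zero_iff.mp (algebraMap_ser_injective (hp.trans (map_zero _).symm))

theorem algebraMap_ps_mem_nonunits {p : PowerSeries k} (hp : PowerSeries.constantCoeff p = 0) :
    algebraMap (PowerSeries k) (SerFld k) p ∈ (serInt k).nonunits := by
  rw [ValuationSubring.mem_nonunits_iff_exists_mem_maximalIdeal]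
  refine ⟨mem_serInt.mpr ⟨p, rfl⟩, ?_⟩
  rw [mem_maximalIdeal, mem_nonunits_iff]
  intro hu
  obtain ⟨⟨q, hq⟩, hpq⟩ := isUnit_iff_exists_inv.mp hu
  obtain ⟨q, rfl⟩ := mem_serInt.mp hq
  have h := congrArg Subtype.val hpq
  rw [MulMemClass.coe_mul, OneMemClass.coe_one, ← map_mul,
    ← map_one (algebraMap (PowerSeries k) (SerFld k))] at h
  have h' := congrArg PowerSeries.constantCoeff (algebraMap_ser_injective h)
  simp [hp] at h'

/-- Finiteness over `k(s)` inside the field itself. -/
theorem finiteDimensional_adjoin_self {Ω : Type u} [Field Ω] [Algebra k Ω] {s : Ω}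
    (F : IntermediateField k Ω) (hs : s ∈ F) (F' : IntermediateField k⟮s⟯ Ω)
    (hF : F = F'.restrictScalars k) [FiniteDimensional k⟮s⟯ F'] :
    FiniteDimensional k⟮(⟨s, hs⟩ : F)⟯ F := by
  classical
  obtain ⟨T, hT⟩ := Module.Finite.fg_top (R := k⟮s⟯) (M := F')
  have hm : ∀ x : F', (x : Ω) ∈ F := fun x => by rw [hF]; exact x.2
  refine ⟨⟨T.image fun x : F' => (⟨x, hm x⟩ : F), top_le_iff.mp fun y _ => ?_⟩⟩
  have hy : (⟨(y : Ω), (SetLike.ext_iff.mp hF (y : Ω)).mp y.2⟩ : F') ∈
      Submodule.span k⟮s⟯ (T : Set F') := by rw [hT]; trivial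
  suffices H : ∀ x : F', x ∈ Submodule.span k⟮s⟯ (T : Set F') →
      (⟨x, hm x⟩ : F) ∈ Submodule.span k⟮(⟨s, hs⟩ : F)⟯
        ((T.image fun x : F' => (⟨x, hm x⟩ : F) : Finset F) : Set F) from H _ hy
  intro x hx
  induction hx using Submodule.span_induction with
  | mem x hx => exact Submodule.subset_span (Finset.mem_image.mpr ⟨x, hx, rfl⟩)
  | zero => exact zero_mem _
  | add x z _ _ hx hz => exact add_mem hx hz
  | smul c x _ hx =>
    have hc : (c : Ω) ∈ (k⟮(⟨s, hs⟩ : F)⟯).map F.val := by
      rw [IntermediateField.adjoin_map, Set.image_singleton]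
      exact c.2
    obtain ⟨w, hw, hwc⟩ := hc
    have e : (⟨((c • x : F') : Ω), hm _⟩ : F) =
        (⟨w, hw⟩ : k⟮(⟨s, hs⟩ : F)⟯) • (⟨x, hm x⟩ : F) := Subtype.ext (by
      show (c : Ω) * x = (w : Ω) * x
      rw [← hwc]
      rfl)
    rw [e]
    exact Submodule.smul_mem _ _ hx

end Line

section Algebraic

variable {K : Type u} [Field K] {L : Type u} [Field L] [Algebra K L] {M : Type u} [AddCommGroup M]
  [Module L M] [Module K M] [IsScalarTower K L M]

omit [IsScalarTower K L M] in
/-- A derivation killing generators of the maximal ideal kills an essentially finite local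
subalgebra with residue field `K`. -/
theorem derivation_eq_zero (O : Subalgebra K L) [IsLocalRing O] {ι : Type*} (t : ι → O)
    (ht : maximalIdeal O = Ideal.span (Set.range t))
    (hres : ∀ r : O, ∃ a : K, r - algebraMap K O a ∈ maximalIdeal O)
    (G : Finset L) (hG : Algebra.adjoin K (G : Set L) ≤ O)
    (hloc : ∀ h ∈ O, ∃ a ∈ Algebra.adjoin K (G : Set L), ∃ b ∈ Algebra.adjoin K (G : Set L),
      b⁻¹ ∈ O ∧ b ≠ 0 ∧ h * b = a)
    (D : Derivation K L M) (hD : ∀ i, D (t i : L) = 0) : ∀ h ∈ O, D h = 0 := by
  classical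
  set N : Submodule O M := Submodule.span O (D '' (G : Set L)) with hN
  have hadj : ∀ x ∈ Algebra.adjoin K (G : Set L), D x ∈ N := fun x hx => by
    induction hx using Algebra.adjoin_induction with
    | mem x hx => exact Submodule.subset_span ⟨x, hx, rfl⟩
    | algebraMap a => simp
    | add x y _ _ hx hy => rw [map_add]; exact add_mem hx hy
    | mul x y hx' hy' hx hy =>
      rw [Derivation.leibniz]
      exact add_mem (N.smul_mem (⟨x, hG hx'⟩ : O) hy) (N.smul_mem (⟨y, hG hy'⟩ : O) hx)
  have hON : ∀ h ∈ O, D h ∈ N := fun h hh => by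
    obtain ⟨a, ha, b, hb, hbO, hb0, e⟩ := hloc h hh
    have h1 := congrArg D e
    rw [Derivation.leibniz] at h1
    have h2 : b • D h ∈ N := by
      rw [eq_sub_of_add_eq' h1]
      exact sub_mem (hadj a ha) (N.smul_mem (⟨h, hh⟩ : O) (hadj b hb))
    have h3 : b⁻¹ • b • D h ∈ N := N.smul_mem (⟨b⁻¹, hbO⟩ : O) h2
    rwa [smul_smul, inv_mul_cancel₀ hb0, one_smul] at h3
  have hle : N ≤ maximalIdeal O • N := by
    refine Submodule.span_le.mpr ?_
    rintro _ ⟨x, hx, rfl⟩
    obtain ⟨a, ha⟩ := hres ⟨x, hG (Algebra.subset_adjoin hx)⟩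
    rw [ht] at ha
    obtain ⟨y, hy⟩ := Finsupp.mem_span_range_iff_exists_finsupp.mp ha
    have e : x = algebraMap K L a + ∑ i ∈ y.support, ((y i : O) : L) * (t i : L) := by
      have := congrArg (Subtype.val) hy
      simp only [Finsupp.sum, smul_eq_mul, AddSubmonoidClass.coe_finsetSum, MulMemClass.coe_mul,
        AddSubgroupClass.coe_sub] at this
      rw [this]
      exact (add_sub_cancel (algebraMap K L a) x).symm
    rw [SetLike.mem_coe, e, map_add, Derivation.map_algebraMap, zero_add, map_sum]
    refine Submodule.sum_mem _ fun i _ => ?_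
    rw [Derivation.leibniz, hD, smul_zero, zero_add]
    exact Submodule.smul_mem_smul (r := t i) (by rw [ht]; exact Ideal.subset_span ⟨i, rfl⟩)
      (hON _ (y i).2)
  have h0 : N = ⊥ := Submodule.eq_bot_of_le_smul_of_le_jacobson_bot _ N
    (Submodule.fg_span (G.finite_toSet.image _)) hle (maximalIdeal_le_jacobson _)
  exact fun h hh => by simpa [h0] using hON h hh

end Algebraic

namespace AbData

variable {K : Type u} [Field K] [IsAlgClosed K] (X : AbData K)

/-- A point over the generic point, with values in a one variable function field, reducing to `0`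
at a place. -/
structure GenericCurve where
  k : Type u
  F : Type u
  [fieldk : Field k]
  [algKk : Algebra K k]
  [isAlgClosed : IsAlgClosed k]
  [fieldF : Field F]
  [algkF : Algebra k F]
  [algKF : Algebra K F]
  [tower : IsScalarTower K k F]
  [isFunctionField : FF.IsFunctionField k F]
  o : Place k F
  γ : X.Pt F
  img_γ : X.img γ = genericPoint X.A
  red_γ : redPt X o γ = 0

attribute [instance] GenericCurve.fieldk GenericCurve.algKk GenericCurve.isAlgClosed
  GenericCurve.fieldF GenericCurve.algkF GenericCurve.algKF GenericCurve.tower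
  GenericCurve.isFunctionField

/-- A finite set of rational functions describing the local ring at a point. -/
theorem exists_generators (p : X.Pt K) :
    ∃ G : Finset X.Fun, Algebra.adjoin K (G : Set X.Fun) ≤ X.loc (X.img p) ∧
      (∀ h ∈ X.loc (X.img p), ∃ a ∈ Algebra.adjoin K (G : Set X.Fun),
        ∃ b ∈ Algebra.adjoin K (G : Set X.Fun), b⁻¹ ∈ X.loc (X.img p) ∧ b ≠ 0 ∧ h * b = a) ∧
      ∀ h : X.Fun, ∃ a ∈ Algebra.adjoin K (G : Set X.Fun),
        ∃ b ∈ Algebra.adjoin K (G : Set X.Fun), b ≠ 0 ∧ h = a / b := by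
  classical
  obtain ⟨ch, hp⟩ := X.exists_chart (X.img p)
  have hne := X.genericPoint_mem hp
  let := ch.algebra
  obtain ⟨G₀, hG₀⟩ := ch.exists_finset
  have hK : ∀ a, ch.sec hne (ch.hom a) = algebraMap K X.Fun a := fun a => by
    rw [ch.sec_eq hp, ch.germ_hom hp, X.toFun_cst]
  let secA : Γ(X.A, ch.U) →ₐ[K] X.Fun := { ch.sec hne with commutes' := hK }
  have hadj : Algebra.adjoin K ((G₀.image secA : Finset X.Fun) : Set X.Fun) = secA.range := by
    rw [Finset.coe_image, ← AlgHom.map_adjoin, hG₀, Algebra.map_top]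
  refine ⟨G₀.image secA, ?_, ?_, ?_⟩
  · rw [hadj]
    rintro _ ⟨r, rfl⟩
    exact ch.sec_mem hp hne r
  · rintro h ⟨s, rfl⟩
    let := X.A.presheaf.algebra_section_stalk (⟨X.img p, hp⟩ : ch.U)
    have := ch.affine.isLocalization_stalk ⟨X.img p, hp⟩
    obtain ⟨⟨a, b⟩, hab⟩ := IsLocalization.surj
      (ch.affine.primeIdealOf ⟨X.img p, hp⟩).asIdeal.primeCompl s
    have hb := IsLocalization.map_units (X.A.presheaf.stalk (X.img p))
      (M := (ch.affine.primeIdealOf ⟨X.img p, hp⟩).asIdeal.primeCompl) b
    obtain ⟨v, hv⟩ := isUnit_iff_exists_inv.mp hb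
    have hb1 : secA (b : Γ(X.A, ch.U)) * X.toFun _ v = 1 := by
      show ch.sec hne _ * _ = 1
      rw [ch.sec_eq hp, ← map_mul]
      exact (congrArg _ hv).trans (map_one _)
    refine ⟨secA a, hadj ▸ ⟨a, rfl⟩, secA b, hadj ▸ ⟨b, rfl⟩,
      ⟨v, eq_inv_of_mul_eq_one_right hb1⟩, left_ne_zero_of_mul_eq_one hb1, ?_⟩
    show X.toFun _ s * ch.sec hne _ = ch.sec hne _
    rw [ch.sec_eq hp, ch.sec_eq hp, ← map_mul]
    exact congrArg _ hab
  · intro h
    have : Nonempty ch.U := ⟨⟨_, hp⟩⟩
    have := functionField_isFractionRing_of_isAffineOpen X.A ch.U ch.affine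
    obtain ⟨a, b, hb, hab⟩ := IsFractionRing.div_surjective (A := Γ(X.A, ch.U)) h
    have hb0 : secA b ≠ 0 := IsFractionRing.to_map_ne_zero_of_mem_nonZeroDivisors
      (K := X.A.functionField) hb
    exact ⟨secA a, hadj ▸ ⟨a, rfl⟩, secA b, hadj ▸ ⟨b, rfl⟩, hb0, hab.symm⟩

/-- The function field is algebraic over the parameters at a rational point. -/
theorem isAlgebraic_parameters (p : X.Pt K) (E : Expansion K (X.loc (X.img p)) X.dim) :
    Algebra.IsAlgebraic (IntermediateField.adjoin K (Set.range fun i => (E.t i : X.Fun))) X.Fun := by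
  classical
  set L := IntermediateField.adjoin K (Set.range fun i => (E.t i : X.Fun))
  obtain ⟨G, hG, hloc, hfr⟩ := X.exists_generators p
  have : Algebra.EssFiniteType K X.Fun := by
    refine IntermediateField.fg_top_iff.mp ?_
    exact ⟨G, top_le_iff.mp fun h _ => by
      obtain ⟨a, ha, b, hb, -, rfl⟩ := hfr h
      exact div_mem (IntermediateField.algebra_adjoin_le_adjoin K _ ha)
        (IntermediateField.algebra_adjoin_le_adjoin K _ hb)⟩
  have : Algebra.EssFiniteType L X.Fun := Algebra.EssFiniteType.of_comp K L X.Fun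
  have : Algebra.FormallyUnramified L X.Fun := by
    refine ⟨?_⟩
    rw [subsingleton_iff_forall_eq 0]
    intro ω
    have hD : ∀ f : X.Fun, KaehlerDifferential.D L X.Fun f = 0 := by
      intro f
      let D := (KaehlerDifferential.D L X.Fun).restrictScalars K
      have hO := derivation_eq_zero (X.loc (X.img p)) E.t E.span_t (fun r => ⟨X.ev p r, by
          rw [mem_maximalIdeal, mem_nonunits_iff, ← X.isUnit_ev_iff]; simp⟩) G hG hloc D
        fun i => (KaehlerDifferential.D L X.Fun).map_algebraMap
          (⟨_, IntermediateField.subset_adjoin K _ ⟨i, rfl⟩⟩ : L)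
      obtain ⟨a, ha, b, hb, hb0, rfl⟩ := hfr f
      show D (a / b) = 0
      rw [Derivation.leibniz_div, hO a (hG ha), hO b (hG hb), smul_zero, smul_zero, sub_zero,
        smul_zero]
    have hω : ω ∈ Submodule.span X.Fun (Set.range (KaehlerDifferential.D L X.Fun)) := by
      rw [KaehlerDifferential.span_range_derivation]; trivial
    induction hω using Submodule.span_induction with
    | mem x hx => obtain ⟨f, rfl⟩ := hx; exact hD f
    | zero => rfl
    | add x y _ _ hx hy => rw [hx, hy, add_zero]
    | smul a x _ hx => rw [hx, smul_zero]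
  have := Algebra.FormallyUnramified.isSeparable L X.Fun
  exact Algebra.IsSeparable.isAlgebraic L X.Fun

/-- There is a generic curve through the origin. -/
theorem exists_generic_curve : Nonempty X.GenericCurve := by
  classical
  set z₀ := X.img (0 : X.Pt K)
  obtain ⟨E⟩ := X.nonempty_expansion_loc (0 : X.Pt K)
  obtain ⟨σ, hσinj, hσt, hσ0⟩ := E.exists_normalized
  let k : Type u := AlgebraicClosure (FractionRing (MvPolynomial (Fin X.dim) K))
  let c : Fin X.dim → k := fun i => algebraMap (MvPolynomial (Fin X.dim) K) k (MvPolynomial.X i)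
  have hc : AlgebraicIndependent K c := by
    rw [algebraicIndependent_iff_injective_aeval,
      show MvPolynomial.aeval c = IsScalarTower.toAlgHom K (MvPolynomial (Fin X.dim) K) k from
        MvPolynomial.algHom_ext fun i => by simp [c]]
    show Function.Injective (algebraMap (MvPolynomial (Fin X.dim) K) k)
    rw [IsScalarTower.algebraMap_eq (MvPolynomial (Fin X.dim) K)
      (FractionRing (MvPolynomial (Fin X.dim) K)) k]
    exact (algebraMap (FractionRing (MvPolynomial (Fin X.dim) K)) k).injective.comp
      (IsFractionRing.injective _ _)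
  let ψ : X.loc z₀ →ₐ[K] SerFld k := (psToFld K k).comp ((lineHom c).comp σ)
  have hψ : Function.Injective ψ :=
    algebraMap_ser_injective.comp ((lineHom_injective c hc).comp hσinj)
  -- extend to rational functions
  have hst : Function.Injective
      (ψ.toRingHom.comp (X.stalkEquiv z₀).toRingHom) := hψ.comp (X.stalkEquiv z₀).injective
  let φ₀ : X.Fun →+* SerFld k := IsFractionRing.lift hst
  have hφloc : ∀ h : X.loc z₀, φ₀ h = ψ h := fun h => by
    conv_lhs => rw [← X.toFun_stalkEquiv_symm z₀ h]
    refine (IsFractionRing.lift_algebraMap hst ((X.stalkEquiv z₀).symm h)).trans ?_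
    show ψ (X.stalkEquiv z₀ ((X.stalkEquiv z₀).symm h)) = ψ h
    rw [RingEquiv.apply_symm_apply]
  let φ : X.Fun →ₐ[K] SerFld k :=
    { φ₀ with commutes' := fun a => (hφloc (algebraMap K (X.loc z₀) a)).trans (ψ.commutes a) }
  -- the field of the curve
  obtain ⟨G, hG, -, hfr⟩ := X.exists_generators (0 : X.Pt K)
  set s := serS k
  let S := k⟮s⟯
  let F' : IntermediateField S (SerFld k) :=
    IntermediateField.adjoin S (φ '' (G : Set X.Fun))
  have halg := X.isAlgebraic_parameters (0 : X.Pt K) E
  set P := IntermediateField.adjoin K (Set.range fun i => (E.t i : X.Fun))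
  have hPS : ∀ x ∈ P, φ x ∈ S := fun x hx => by
    have : P.map φ ≤ S.restrictScalars K := by
      rw [IntermediateField.adjoin_map, IntermediateField.adjoin_le_iff]
      rintro _ ⟨_, ⟨i, rfl⟩, rfl⟩
      show φ₀ _ ∈ S
      rw [hφloc]
      show psToFld K k (lineHom c (σ (E.t i))) ∈ S
      rw [hσt, lineHom_X, map_mul, psToFld_apply, psToFld_apply]
      refine mul_mem ?_ (IntermediateField.mem_adjoin_simple_self k s)
      rw [show algebraMap (PowerSeries k) (SerFld k) (PowerSeries.C (c i)) =
        algebraMap k (SerFld k) (c i) from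
          (IsScalarTower.algebraMap_apply k (PowerSeries k) (SerFld k) (c i)).symm]
      exact S.algebraMap_mem _
    exact this ⟨x, hx, rfl⟩
  have hint : ∀ x ∈ φ '' (G : Set X.Fun), IsIntegral S x := by
    rintro _ ⟨x, -, rfl⟩
    let j : P →+* S := (φ.toRingHom.comp P.val.toRingHom).codRestrict S fun y => hPS _ y.2
    exact ((Algebra.IsAlgebraic.isAlgebraic (R := P) x).isIntegral).map_of_comp_eq j φ.toRingHom
      (RingHom.ext fun _ => rfl)
  have : Finite (φ '' (G : Set X.Fun)) := (G.finite_toSet.image φ).to_subtype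
  have : FiniteDimensional S F' := IntermediateField.finiteDimensional_adjoin hint
  let F : IntermediateField k (SerFld k) := F'.restrictScalars k
  have hsmem : s ∈ F := show s ∈ F' from
    F'.algebraMap_mem ⟨s, IntermediateField.mem_adjoin_simple_self k s⟩
  let sF : F := ⟨s, hsmem⟩
  have hsF : Transcendental k sF := fun ha => transcendental_serS (ha.algHom F.val)
  have : FiniteDimensional k⟮sF⟯ F := finiteDimensional_adjoin_self F hsmem F' rfl
  have hFF : FF.IsFunctionField k F := FF.isFunctionField_of_finite hsF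
  have hrange : ∀ h : X.Fun, φ h ∈ F := fun h => by
    have hle : Algebra.adjoin K (G : Set X.Fun) ≤
        (F.restrictScalars K).toSubalgebra.comap φ := Algebra.adjoin_le fun x hx =>
      (show φ x ∈ F from IntermediateField.subset_adjoin S _ ⟨x, hx, rfl⟩)
    obtain ⟨a, ha, b, hb, -, rfl⟩ := hfr h
    rw [map_div₀]
    exact div_mem (hle ha) (hle hb)
  let φF : X.Fun →ₐ[K] F := φ.codRestrict (F.restrictScalars K).toSubalgebra hrange
  have hloc : IsLocalHom φF.toRingHom := ⟨fun h hh => isUnit_iff_ne_zero.mpr fun h0 =>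
    hh.ne_zero (by rw [h0, map_zero])⟩
  -- the place
  let A : ValuationSubring F := (serInt k).comap F.val.toRingHom
  have hA : ∀ a : k, algebraMap k F a ∈ A := fun a => by
    show algebraMap k (SerFld k) a ∈ serInt k
    exact mem_serInt.mpr ⟨PowerSeries.C a, by
      exact (IsScalarTower.algebraMap_apply k (PowerSeries k) (SerFld k) a).symm⟩
  have hAtop : A ≠ ⊤ := fun h => by
    have hmem : sF⁻¹ ∈ A := by rw [h]; trivial
    obtain ⟨q, hq⟩ := mem_serInt.mp (show ((sF⁻¹ : F) : SerFld k) ∈ serInt k from hmem)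
    have h1 : algebraMap (PowerSeries k) (SerFld k) (PowerSeries.X * q) = 1 := by
      rw [map_mul, hq]
      exact mul_inv_cancel₀ serS_ne_zero
    have h2 := congrArg PowerSeries.constantCoeff
      (algebraMap_ser_injective (h1.trans (map_one _).symm))
    simp at h2
  let o : Place k F := FF.placeOfValuationSubring A hA hAtop
  refine ⟨{ k := k, F := F, o := o, γ := X.map φF X.genPt, img_γ := ?_, red_γ := ?_ }⟩
  · rw [img_map_of_isLocalHom, img_genPt]
  let χ : X.loc z₀ →ₐ[K] placeAlg K o :=
    (φF.comp (X.loc z₀).val).codRestrict (placeAlg K o) fun h => by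
      show φ₀ (h : X.Fun) ∈ serInt k
      rw [hφloc]
      exact mem_serInt.mpr ⟨_, rfl⟩
  have e : X.map φF X.genPt =
      X.map ((IsScalarTower.toAlgHom K (placeAlg K o) F).comp χ) (X.locPt z₀) := by
    rw [← X.map_val_locPt z₀, map_map]
    rfl
  rw [e]
  show X.red (valHom K o) _ = 0
  rw [X.red_map]
  have hev : ∀ r, (valHom K o).comp χ r = (Algebra.ofId K k).comp (X.ev (0 : X.Pt K)) r := fun r => by
    rw [AlgHom.comp_apply, valHom_eq_iff]
    show φF (r : X.Fun) - algebraMap k F (algebraMap K k (X.ev (0 : X.Pt K) r)) ∈ A.nonunits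
    have h1 : φ₀ (r : X.Fun) - algebraMap k (SerFld k) (algebraMap K k (X.ev (0 : X.Pt K) r)) ∈
        (serInt k).nonunits := by
      rw [hφloc, IsScalarTower.algebraMap_apply k (PowerSeries k) (SerFld k)]
      show algebraMap (PowerSeries k) (SerFld k) _ - _ ∈ _
      rw [← map_sub]
      refine algebraMap_ps_mem_nonunits ?_
      rw [map_sub]
      show PowerSeries.constantCoeff (lineHom c (σ r)) - _ = 0
      rw [constantCoeff_lineHom, hσ0, X.constantCoeff_σ]
      simp
    rw [ValuationSubring.mem_nonunits_iff_exists_mem_maximalIdeal] at h1 ⊢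
    obtain ⟨hm, hu⟩ := h1
    refine ⟨hm, ?_⟩
    rw [mem_maximalIdeal, mem_nonunits_iff] at hu ⊢
    intro h
    exact hu (h.map ((F.val.toRingHom.comp A.subtype).codRestrict (serInt k) fun a => a.2))
  rw [X.map_congr hev, ← map_map, X.eq_map_locPt, map_zero]

end AbData

end Fermat.Agent.AbVar
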