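import Fermat.Agent.AbVar.Scheme.Morphism
import Fermat.Agent.AbVar.Height.Basic

/-!
# The symmetrised height on multiples of a point through the origin
-/

set_option autoImplicit false

noncomputable section

universe u

open CategoryTheory CategoryTheory.Limits AlgebraicGeometry NeronModelInfra GoodReductionJacobian
open AlgebraicCurve IsLocalRing
open scoped Classical

namespace Fermat.Agent.AbVar

namespace AbData

namespace CartierData

variable {K : Type u} [Field K] [IsAlgClosed K] {X : AbData K} (D : X.CartierData)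
variable (k F : Type u) [Field k] [IsAlgClosed k] [Algebra K k] [Field F] [Algebra k F]
  [Algebra K F] [IsScalarTower K k F] [FF.IsFunctionField k F]

/-- Invariance of the height under rational translations. -/
def TransInvariant : Prop := ∀ (x : X.Pt F) (a : X.Pt K), D.ht k (x + X.const F a) = D.ht k x

/-- The parallelogram law for points through the origin at a common place. -/
def Parallelogram : Prop := ∀ (x y : X.Pt F) (P : Place k F), redPt X P x = 0 → redPt X P y = 0 →
  D.ht k (x + y) + D.ht k (x - y) - 2 * D.ht k x = D.ht k y + D.ht k (-y)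

/-- The symmetrised height. -/
def htSym (x : X.Pt F) : ℤ := D.ht k x + D.ht k (-x)

variable {k F}

theorem htSym_nsmul (hP : D.Parallelogram k F) {x : X.Pt F} {P : Place k F}
    (hx : redPt X P x = 0) (n : ℕ) : D.htSym k F (n • x) = (n : ℤ) ^ 2 * D.htSym k F x := by
  have h0 : D.htSym k F 0 = 0 := by
    have h := D.ht_map_algebraMap (k := k) (F := F) (0 : X.Pt k)
    rw [map_zero] at h
    rw [htSym, neg_zero, h, add_zero]
  have key : ∀ j : ℕ, D.htSym k F ((j + 2) • x) =
      2 * D.htSym k F ((j + 1) • x) + 2 * D.htSym k F x - D.htSym k F (j • x) := by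
    intro j
    have hr : redPt X P ((j + 1) • x) = 0 := by rw [map_nsmul, hx, nsmul_zero]
    have h1 := hP ((j + 1) • x) x P hr hx
    have h2 := hP (-((j + 1) • x)) (-x) P (by rw [map_neg, hr, neg_zero])
      (by rw [map_neg, hx, neg_zero])
    have e1 : (j + 2) • x = (j + 1) • x + x := succ_nsmul _ _
    have e2 : j • x = (j + 1) • x - x := by rw [succ_nsmul, add_sub_cancel_right]
    rw [← e1, ← e2] at h1
    rw [show -((j + 1) • x) + -x = -((j + 2) • x) by rw [e1]; abel,
      show -((j + 1) • x) - -x = -(j • x) by rw [e2]; abel, neg_neg] at h2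
    simp only [htSym]
    omega
  induction n using Nat.strong_induction_on with
  | _ n ih =>
    match n, ih with
    | 0, _ => simpa using h0
    | 1, _ => simp
    | j + 2, ih =>
      rw [key, ih (j + 1) (by omega), ih j (by omega)]
      push_cast
      ring

/-- With translation invariance, every height is non-negative. -/
theorem ht_nonneg_of_transInvariant (hT : D.TransInvariant k F) (x : X.Pt F) :
    0 ≤ D.ht k x := by
  obtain ⟨W, hgW, hW⟩ := D.coherent (genericPoint X.A)
  obtain ⟨W', hgW', hW'⟩ := X.exists_open_mem_loc (z := genericPoint X.A)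
    (f := (D.gen (genericPoint X.A))⁻¹) (by rw [X.loc_genericPoint]; trivial)
  obtain ⟨p, -, hzp⟩ := X.exists_pt_specializes (U := ⊤) (z := X.img x) trivial
  obtain ⟨a, ha⟩ := X.exists_translate (U := W ⊓ W') ⟨genericPoint X.A, hgW, hgW'⟩ {p}
  have hpa := ha p (Finset.mem_singleton_self p)
  rw [← hT x a]
  set x' := x + X.const F a
  have hx' : x' = X.act 1 a x := by rw [act, one_nsmul]
  have hmem : X.img x' ∈ W ⊓ W' := by
    rw [hx', X.img_act]
    refine (hzp.map (X.endoMor 1 a).1.continuous).mem_open (W ⊓ W').2 ?_
    rw [← X.img_act, act, one_nsmul, const_self, add_comm]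
    exact hpa
  obtain ⟨hz1, hz2⟩ := hW _ hmem.1
  -- the reference generator is a unit at the image
  have hunit : (D.gen (X.img x'))⁻¹ ∈ X.loc (X.img x') := by
    have := mul_mem hz1 (hW' _ hmem.2)
    rwa [div_mul_eq_mul_div, mul_inv_cancel₀ (D.gen_ne_zero _), one_div] at this
  have h0 : X.val x' (D.gen (X.img x')) ≠ 0 :=
    X.val_ne_zero (D.gen_ne_zero _) (D.gen_mem _) hunit
  suffices h : 0 ≤ D.pull k x' + FF.div k (X.val x' (D.gen (X.img x'))) by
    have := FF.degree_nonneg h
    rwa [map_add, FF.degree_div, add_zero] at this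
  refine Finsupp.le_def.mpr fun P => ?_
  have hs := img_specializes_redPt P X x'
  have hm := D.gen_mem (X.img (redPt X P x'))
  have hm' := X.loc_le_of_specializes hs hm
  obtain ⟨h, -⟩ := ev_redPt P X x' hm hm'
  rw [Finsupp.zero_apply, Finsupp.add_apply, D.pull_apply, FF.div_apply, locVal,
    ← P.ord_mul ?_ h0, ← X.val_mul (D.div_mem_of_specializes hs).1 (D.gen_mem _),
    div_mul_cancel₀ _ (D.gen_ne_zero _), X.val_eq hm']
  · exact FF.ord_nonneg P h
  · exact X.val_ne_zero (div_ne_zero (D.gen_ne_zero _) (D.gen_ne_zero _))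
      (D.div_mem_of_specializes hs).1 (by rw [inv_div]; exact (D.div_mem_of_specializes hs).2)

theorem ht_le_htSym (hT : D.TransInvariant k F) (x : X.Pt F) : D.ht k x ≤ D.htSym k F x :=
  le_add_of_nonneg_right (D.ht_nonneg_of_transInvariant hT (-x))

end CartierData

end AbData

end Fermat.Agent.AbVar
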