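import Fermat.Agent.AbVar.Count.Common
import Fermat.Agent.AbVar.Count.Quadratic
import Fermat.Agent.AbVar.Count.Dominant
import Fermat.Agent.AbVar.Count.Asymptotic

/-!
# The lower bound for the number of torsion points
-/

set_option autoImplicit false

noncomputable section

universe u

open CategoryTheory CategoryTheory.Limits AlgebraicGeometry NeronModelInfra GoodReductionJacobian
open AlgebraicCurve IsLocalRing
open scoped Classical

namespace Fermat.Agent.AbVar

namespace AbData

variable {K : Type u} [Field K] [IsAlgClosed K] {X : AbData K}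

omit [IsAlgClosed K] in
theorem act_one_apply {R : Type u} [CommRing R] [Algebra K R] (a : X.Pt K) (x : X.Pt R) :
    X.act 1 a x = x + X.const R a := by rw [act, one_nsmul]

omit [IsAlgClosed K] in
theorem redPt_const {k F : Type u} [Field k] [IsAlgClosed k] [Algebra K k] [Field F] [Algebra k F]
    [Algebra K F] [IsScalarTower K k F] [FF.IsFunctionField k F] (P : Place k F) (a : X.Pt K) :
    redPt X P (X.const F a) = X.const k a :=
  X.red_const _ a

/-- Points of a field are determined inside an extension. -/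
theorem map_field_injective {F F' : Type u} [Field F] [Algebra K F] [Field F'] [Algebra K F']
    (φ : F →ₐ[K] F') : Function.Injective (X.map φ) := by
  intro x y h
  have hi : X.img x = X.img y := by rw [← X.img_map_field φ x, h, X.img_map_field]
  refine X.pt_ext hi fun r hx hy => φ.injective ?_
  show φ _ = φ _
  rw [← X.val_eq hx, ← X.val_eq hy, ← X.val_map φ, ← X.val_map φ, h]

variable {k F : Type u} [Field k] [IsAlgClosed k] [Algebra K k] [Field F] [Algebra k F]
  [Algebra K F] [IsScalarTower K k F] [FF.IsFunctionField k F]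

/-- A dominant point becomes divisible by `n` in a finite extension. -/
theorem exists_divide {n : ℕ} (hn : (n : K) ≠ 0) {γ : X.Pt F}
    (hγ : X.img γ = genericPoint X.A) :
    ∃ (F' : IntermediateField F (AlgebraicClosure F)) (_ : FiniteDimensional F F') (δ : X.Pt F'),
      X.img δ = genericPoint X.A ∧
        n • δ = X.map (IsScalarTower.toAlgHom K F F') γ := by
  let Ω := AlgebraicClosure F
  obtain ⟨δ', hδ'⟩ := X.nsmul_surjective hn (Ω := Ω) (X.map (IsScalarTower.toAlgHom K F Ω) γ)
  replace hδ' : n • δ' = X.map (IsScalarTower.toAlgHom K F Ω) γ := hδ'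
  have hgen : X.img δ' = genericPoint X.A := X.img_eq_genericPoint_of_act hn 0 δ' (by
    rw [act, map_zero, add_zero, hδ', X.img_map_field, hγ])
  obtain ⟨s, hs⟩ := X.exists_adjoin_eq_top
  let φ := X.genEval hgen
  let F' : IntermediateField F Ω := IntermediateField.adjoin F ((s.image φ : Finset Ω) : Set Ω)
  have hfin : FiniteDimensional F F' :=
    IntermediateField.finiteDimensional_adjoin fun x _ =>
      (Algebra.IsAlgebraic.isAlgebraic x).isIntegral
  have hmem : ∀ f, φ f ∈ F' := by
    intro f
    have hf : f ∈ IntermediateField.adjoin K (s : Set X.Fun) := by rw [hs]; trivial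
    induction hf using IntermediateField.adjoin_induction with
    | mem x hx =>
      exact IntermediateField.subset_adjoin F _ (Finset.mem_coe.mpr (Finset.mem_image_of_mem φ hx))
    | algebraMap c =>
      rw [AlgHom.commutes, IsScalarTower.algebraMap_apply K F Ω]
      exact F'.algebraMap_mem _
    | add x y _ _ hx hy => rw [map_add]; exact add_mem hx hy
    | inv x _ hx => rw [map_inv₀]; exact inv_mem hx
    | mul x y _ _ hx hy => rw [map_mul]; exact mul_mem hx hy
  let ψ : X.Fun →ₐ[K] F' :=
    { toRingHom := φ.toRingHom.codRestrict F'.toSubfield hmem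
      commutes' := fun c => Subtype.ext (φ.commutes c) }
  let incl : F' →ₐ[K] Ω := F'.val.restrictScalars K
  refine ⟨F', hfin, X.map ψ X.genPt, ?_, ?_⟩
  · rw [X.img_map_field, X.img_genPt]
  · apply map_field_injective incl
    rw [map_nsmul, X.map_map, X.map_map]
    have h1 : X.map (incl.comp ψ) X.genPt = δ' := by
      rw [X.map_congr (φ := incl.comp ψ) (ψ := φ) (fun r => rfl)]
      exact X.map_genEval hgen
    rw [h1, hδ']
    exact X.map_congr (fun r => rfl) γ

namespace CartierData

variable (D : X.CartierData)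

/-- The parameters give functions with prescribed jets at many points. -/
theorem exists_function_with_zeros {U : X.A.Opens} (y : Fin X.dim → X.Fun)
    (hy : ∀ i, y i ∈ D.denSpace 1) (hyU : ∀ i, ∀ z ∈ U, y i ∈ X.loc z)
    (h0U : X.img (0 : X.Pt K) ∈ U) (E : Expansion K (X.loc (X.img (0 : X.Pt K))) X.dim)
    (hyE : ∀ i (h : y i ∈ X.loc (X.img (0 : X.Pt K))),
      LowZero 2 (E.σ ⟨y i, h⟩ - MvPowerSeries.X i))
    (T : Finset (X.Pt K)) (hT : ∀ b ∈ T, X.img b ∈ U) (B M : ℕ)
    (hBM : T.card * M ^ X.dim < B ^ X.dim) :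
    ∃ f : X.Fun, f ≠ 0 ∧ f ∈ D.denSpace (X.dim * B) ∧ (∀ z ∈ U, f ∈ X.loc z) ∧
      ∀ b ∈ T, ∀ hf : f ∈ X.loc (X.img (X.act 1 b 0)),
        X.pull 1 b 0 ⟨f, hf⟩ ∈ maximalIdeal (X.loc (X.img (0 : X.Pt K))) ^ M := by
  let g := X.dim
  let toF : (Fin g → Fin B) → Fin g →₀ ℕ := fun β => Finsupp.equivFunOnFinite.symm fun i => (β i : ℕ)
  have htoF : Function.Injective toF := fun β β' h =>
    funext fun i => Fin.ext (by simpa [toF] using DFunLike.congr_fun h i)
  let mon : (Fin g → Fin B) → X.Fun := fun β => ∏ i, y i ^ (β i : ℕ)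
  have hmonU : ∀ β, ∀ z ∈ U, mon β ∈ X.loc z := fun β z hz =>
    Subalgebra.prod_mem _ fun i _ => pow_mem (hyU i z hz) _
  have hmonD : ∀ β, mon β ∈ D.denSpace (g * B) := fun β =>
    D.denSpace_mono (le_trans (Finset.sum_le_sum fun i _ =>
        (Nat.le_of_lt (β i).2 : (β i : ℕ) ≤ B)) (by simp [g]))
      (D.prod_mem_denSpace Finset.univ (n := fun i => (β i : ℕ)) fun i _ => by
        simpa using D.pow_mem_denSpace (hy i) (β i : ℕ))
  let f : ((Fin g → Fin B) → K) →ₗ[K] X.Fun :=
    { toFun := fun c => ∑ β, c β • mon β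
      map_add' := fun c c' => by simp [add_smul, Finset.sum_add_distrib]
      map_smul' := fun a c => by simp [Finset.smul_sum, smul_smul] }
  have hfU : ∀ c, ∀ z ∈ U, f c ∈ X.loc z := fun c z hz =>
    Subalgebra.sum_mem _ fun β _ => Subalgebra.smul_mem _ (hmonU β z hz) _
  have hb : ∀ b : T, X.img (X.act 1 (b : X.Pt K) (0 : X.Pt K)) ∈ U := fun b => by
    rw [act_one_apply, zero_add, const_self]; exact hT b b.2
  let fR : ∀ b : T, ((Fin g → Fin B) → K) →ₗ[K] X.loc (X.img (X.act 1 (b : X.Pt K) (0 : X.Pt K))) :=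
    fun b =>
      { toFun := fun c => ⟨f c, hfU c _ (hb b)⟩
        map_add' := fun c c' => Subtype.ext (map_add f c c')
        map_smul' := fun a c => Subtype.ext (map_smul f a c) }
  let Ψ : ((Fin g → Fin B) → K) →ₗ[K] (T → {α : Fin g →₀ ℕ // α.degree < M} → K) :=
    LinearMap.pi fun b => ((truncL E M).comp (X.pull 1 (b : X.Pt K) 0).toLinearMap).comp (fR b)
  have hΨ : ¬ Function.Injective Ψ := by
    intro hinj
    have hfinα : Fintype {α : Fin g →₀ ℕ // α.degree < M} :=
      @Fintype.ofFinite _ (((Finsupp.finite_of_degree_le (σ := Fin g) M).subset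
        (fun α (hα : α.degree < M) => le_of_lt hα) : {α : Fin g →₀ ℕ | α.degree < M}.Finite).to_subtype)
    have hcard : Fintype.card {α : Fin g →₀ ℕ // α.degree < M} ≤ M ^ g := by
      let j : {α : Fin g →₀ ℕ // α.degree < M} → (Fin g → Fin M) := fun α i =>
        ⟨α.1 i, lt_of_le_of_lt (Finsupp.le_degree i α.1) α.2⟩
      have hj : Function.Injective j := fun α α' h =>
        Subtype.ext (Finsupp.ext fun i => congrArg Fin.val (congrFun h i))
      simpa using Fintype.card_le_of_injective j hj
    have h := LinearMap.finrank_le_finrank_of_injective hinj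
    rw [Module.finrank_fintype_fun_eq_card, Module.finrank_pi_fintype] at h
    simp only [Module.finrank_fintype_fun_eq_card, Finset.sum_const, Finset.card_univ,
      Fintype.card_fun, Fintype.card_fin, Fintype.card_coe, smul_eq_mul] at h
    exact absurd (h.trans (Nat.mul_le_mul_left _ hcard)) (not_le.mpr hBM)
  rw [injective_iff_map_eq_zero] at hΨ
  push Not at hΨ
  obtain ⟨c, hc, hc0⟩ := hΨ
  refine ⟨f c, ?_, Submodule.sum_mem _ fun β _ => Submodule.smul_mem _ _ (hmonD β), hfU c, ?_⟩
  · -- the monomials are independent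
    intro hfc
    apply hc0
    by_contra hne
    obtain ⟨β₁, hβ₁⟩ : ∃ β, c β ≠ 0 := by
      by_contra! h; exact hne (funext h)
    let S := Finset.univ.filter fun β => c β ≠ 0
    obtain ⟨β₀, hβ₀, hmin⟩ := S.exists_min_image (fun β => (toF β).degree) ⟨β₁, by simp [S, hβ₁]⟩
    let t : Fin g → X.loc (X.img (0 : X.Pt K)) := fun i => ⟨y i, hyU i _ h0U⟩
    have ht : ∀ i, LowZero 2 (E.σ (t i) - MvPowerSeries.X i) := fun i => hyE i _
    have hmon : ∀ β, mon β = ((tMon t (toF β) : X.loc (X.img (0 : X.Pt K))) : X.Fun) := by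
      intro β
      simp only [mon, tMon]
      rw [Finsupp.prod_fintype _ _ (fun i => pow_zero _)]
      simp [t, toF]
      rfl
    have h1 := congrArg (fun r => MvPowerSeries.coeff (toF β₀) (E.σ r))
      (show (∑ β, c β • tMon t (toF β) : X.loc (X.img (0 : X.Pt K))) = 0 from Subtype.ext (by
        rw [AddSubmonoidClass.coe_finsetSum, ZeroMemClass.coe_zero]
        refine Eq.trans (Finset.sum_congr rfl fun β _ => ?_) hfc
        rw [Subalgebra.coe_smul, ← hmon]))
    simp only [map_sum, map_smul, map_zero, smul_eq_mul] at h1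
    rw [Finset.sum_eq_single β₀] at h1
    · rw [lowZero_iff_sub.mp (lowZero_σ_tMon ht (toF β₀)) _ (Nat.lt_succ_self _),
        MvPowerSeries.coeff_monomial, if_pos rfl, mul_one] at h1
      exact (Finset.mem_filter.mp hβ₀).2 h1
    · intro β _ hne'
      by_cases hcb : c β = 0
      · rw [hcb, zero_mul]
      · have hle := hmin β (by simp [S, hcb])
        rw [lowZero_iff_sub.mp (lowZero_σ_tMon ht (toF β)) _ (Nat.lt_succ_of_le hle),
          MvPowerSeries.coeff_monomial, if_neg fun h => hne' (htoF h).symm, mul_zero]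
    · simp
  · intro b hb' hf
    have h := (truncL_eq_zero_iff E M _).mp (congrFun hc ⟨b, hb'⟩)
    exact h

/-- The lower bound. -/
theorem exists_lower_bound
    (hT : ∀ (F' : Type u) [Field F'] [Algebra k F'] [Algebra K F'] [IsScalarTower K k F']
      [FF.IsFunctionField k F'], D.TransInvariant k F')
    (hP : ∀ (F' : Type u) [Field F'] [Algebra k F'] [Algebra K F'] [IsScalarTower K k F']
      [FF.IsFunctionField k F'], D.Parallelogram k F')
    {U : X.A.Opens} (S : Finset X.Fun) (h0U : X.img (0 : X.Pt K) ∈ U)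
    (hSU : ∀ h ∈ S, ∀ z ∈ U, h ∈ X.loc z) (hden : ∀ h ∈ S, h ∈ D.denSpace 1)
    (hmax : ∀ p : X.Pt K, X.img p ∈ U → ∀ hS : ∀ h ∈ S, h ∈ X.loc (X.img p),
      maximalIdeal (X.loc (X.img p)) = Ideal.span (Set.range fun h : S =>
        (⟨h.1, hS h.1 h.2⟩ : X.loc (X.img p)) -
          algebraMap K _ (X.ev p ⟨h.1, hS h.1 h.2⟩)))
    {o : Place k F} {γ : X.Pt F} (hγ : X.img γ = genericPoint X.A) (hγo : redPt X o γ = 0)
    {n : ℕ} (hn : (n : K) ≠ 0) (hfin : Finite (X.torsion n)) :
    n ^ (2 * X.dim) ≤ (2 * X.dim * (D.htSym k F γ).toNat) ^ X.dim * Nat.card (X.torsion n) := by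
  set g := X.dim with hg_def
  set N := Nat.card (X.torsion n)
  have hN : 0 < N := Nat.card_pos
  rcases Nat.eq_zero_or_pos g with hg | hg
  · rw [hg]; simp; omega
  set H := D.htSym k F γ
  have hn0 : 0 < n := Nat.pos_of_ne_zero fun h => hn (by simp [h])
  obtain ⟨E⟩ := X.nonempty_expansion_loc (0 : X.Pt K)
  obtain ⟨y, hy, hyU, hyE⟩ := exists_params D S h0U hSU hden hmax E
  -- torsion translated into `U`
  let A : Finset (X.Pt K) := (Set.finite_coe_iff.mp hfin).toFinset
  have hA : ∀ a, a ∈ A ↔ n • a = 0 := fun a => by simp [A, mem_torsion]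
  obtain ⟨p, hp⟩ := X.exists_translate (U := U) ⟨_, h0U⟩ A
  let T : Finset (X.Pt K) := A.image fun a => p + a
  have hTcard : T.card ≤ N := Finset.card_image_le.trans (le_of_eq
    (Nat.card_eq_card_finite_toFinset _).symm)
  -- the key inequality
  have key : ∀ B M : ℕ, N * M ^ g < B ^ g → (M : ℤ) * (n : ℤ) ^ 2 ≤ g * B * H := by
    intro B M hBM
    obtain ⟨f, hf0, hfD, hfU, hfT⟩ := D.exists_function_with_zeros y hy hyU h0U E hyE T
      (fun b hb => by obtain ⟨a, ha, rfl⟩ := Finset.mem_image.mp hb; exact hp a ha) B M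
      (lt_of_le_of_lt (Nat.mul_le_mul_right _ hTcard) hBM)
    obtain ⟨F', hfd, δ, hδ, hδn⟩ := exists_divide hn hγ
    have : FF.IsFunctionField k F' := FF.isFunctionField_extension k F F'
    have : IsScalarTower K k F' := IsScalarTower.of_algebraMap_eq fun c => by
      rw [IsScalarTower.algebraMap_apply K F F', IsScalarTower.algebraMap_apply K k F,
        ← IsScalarTower.algebraMap_apply k F F']
    let r := Module.finrank F F'
    let x := δ + X.const F' p
    have hx : X.img x = genericPoint X.A := by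
      have h1 : ((1 : ℕ) : K) ≠ 0 := by simp
      rw [show x = X.act 1 p δ from (act_one_apply p δ).symm, X.img_act, hδ,
        X.endoMor_genericPoint h1]
    -- at the places over `o` the point reduces to translated torsion
    have hfib : ∀ w ∈ o.fiber F', ∃ a ∈ A, redPt X w δ = X.const k a := by
      intro w hw
      have h : n • redPt X w δ = 0 := by
        rw [← map_nsmul, hδn, redPt_map, Place.mem_fiber.mp hw, hγo]
      obtain ⟨a, ha, hax⟩ := X.exists_const_of_nsmul_eq_zero hn _ h
      exact ⟨a, (hA a).mpr ha, hax⟩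
    have hzero : ∀ w ∈ o.fiber F',
        X.val x f ∈ FF.ordGe w ((M * w.ramificationIndex F : ℕ) : ℤ) := by
      intro w hw
      obtain ⟨a, ha, hwa⟩ := hfib w hw
      let δ₀ := δ - X.const F' a
      have hred : redPt X w δ₀ = 0 := by rw [map_sub, hwa, redPt_const, sub_self]
      have hn' : n • δ₀ = X.map (IsScalarTower.toAlgHom K F F') γ := by
        rw [nsmul_sub, ← map_nsmul (X.const F'), (hA a).mp ha, map_zero, sub_zero, hδn]
      have hs := X.img_specializes_zero hred
      have hact : X.act n 0 δ₀ = X.map (IsScalarTower.toAlgHom K F F') γ := by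
        rw [act, map_zero, add_zero, hn']
      have he : ∀ q ∈ maximalIdeal (X.loc (X.img (0 : X.Pt K))),
          X.val δ₀ (q : X.Fun) ∈ FF.ordGe w (w.ramificationIndex F : ℤ) := by
        let φ : X.loc (X.img (0 : X.Pt K)) →ₐ[K] F' :=
          (X.ev δ₀).comp (Subalgebra.inclusion (X.loc_le_of_specializes hs))
        have hφ : ∀ q : X.loc (X.img (0 : X.Pt K)), X.val δ₀ (q : X.Fun) = φ q := fun q =>
          X.val_eq (X.loc_le_of_specializes hs q.2)
        have hint : ∀ q, φ q ∈ FF.ordGe w 0 := fun q => by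
          rw [← hφ]
          simpa using val_mem_ordGe_of_mem_pow hred (e := 0) (M := 0)
            (fun r _ => by
              have h0 : (r : X.Fun) ∈ X.loc (X.img (redPt X w δ₀)) := by
                rw [hred, show (0 : X.Pt k) = X.const k 0 from (map_zero _).symm, X.img_const]
                exact r.2
              obtain ⟨h1, -⟩ := ev_redPt w X δ₀ h0 (X.loc_le_of_specializes hs r.2)
              rw [Nat.cast_zero, FF.mem_ordGe_zero, X.val_eq (X.loc_le_of_specializes hs r.2)]
              exact h1) (r := q) (by simp)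
        intro q hq
        rw [hφ]
        rw [X.maximalIdeal_eq_map_pull hn 0 0] at hq
        refine Submodule.span_induction ?_ ?_ ?_ ?_ hq
        · rintro _ ⟨q', hq', rfl⟩
          rw [← hφ, val_act n 0 0 hs q', hact, X.val_map]
          have hh : (q' : X.Fun) ∈ X.loc (X.img (redPt X o γ)) := by
            refine X.mem_loc_congr ?_ q'.2
            rw [hγo, show (0 : X.Pt k) = X.const k 0 from (map_zero _).symm, X.img_const, act,
              nsmul_zero, map_zero, add_zero]
          have hh' := X.loc_le_of_specializes (img_specializes_redPt o X γ) hh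
          obtain ⟨hv, hveq⟩ := ev_redPt o X γ hh hh'
          have hz : X.ev (redPt X o γ) ⟨q', hh⟩ = 0 := by
            by_contra hne
            have hu := (X.isUnit_ev_iff _ _).mp (isUnit_iff_ne_zero.mpr hne)
            refine (mem_maximalIdeal _).mp hq' ?_
            have himg : X.img (redPt X o γ) = X.img (X.act n 0 (0 : X.Pt K)) := by
              rw [hγo, show (0 : X.Pt k) = X.const k 0 from (map_zero _).symm, X.img_const, act,
                nsmul_zero, map_zero, add_zero]
            convert hu.map (Subalgebra.equivOfEq _ _ (congrArg X.loc himg)).toRingEquiv using 1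
            exact Subtype.ext rfl
          have h1 : X.val γ (q' : X.Fun) ∈ FF.ordGe o 1 := by
            rw [X.val_eq hh']
            exact (FF.residue_eq_zero_iff o (a := ⟨_, hv⟩)).mp
              ((IsLocalRing.residue_eq_zero_iff _).mpr (ValuationSubring.coe_mem_nonunits_iff.mp
                ((valHom_eq_zero_iff o ⟨_, hv⟩).mp (hveq.trans hz))))
          have := FF.algebraMap_mem_ordGe (F' := F') w (c := X.val γ (q' : X.Fun)) (n := 1)
            (by rwa [Place.mem_fiber.mp hw])
          simpa using this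
        · rw [map_zero]; exact zero_mem _
        · intro q q' _ _ h h'; rw [map_add]; exact add_mem h h'
        · intro c q _ h
          rw [smul_eq_mul, map_mul]
          simpa using FF.mul_mem_ordGe w (hint c) h
      have hb : p + a ∈ T := Finset.mem_image_of_mem _ ha
      have hxb : X.act 1 (p + a) δ₀ = x := by
        rw [act_one_apply, map_add]; simp only [δ₀, x]; abel
      have hf : f ∈ X.loc (X.img (X.act 1 (p + a) (0 : X.Pt K))) :=
        hfU _ (by rw [act_one_apply, zero_add, const_self]; exact hp a ha)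
      rw [← hxb, ← val_act 1 (p + a) 0 hs ⟨f, hf⟩]
      exact val_mem_ordGe_of_mem_pow hred he (hfT _ hb hf)
    -- compare zeros and poles
    have hdeg : ((M * r : ℕ) : ℤ) ≤ (g * B : ℕ) * D.ht k x := by
      by_contra! hlt
      refine hf0 ?_
      by_contra hne
      refine X.val_ne_zero_of_generic hx hne (eq_zero_of_mem_riemannRoch_of_ordGe
        (D.nsmul_effPull_nonneg hx (g * B)) (D.val_mem_riemannRochSpace hx hfD) (o.fiber F')
        (fun w => M * w.ramificationIndex F) hzero ?_)
      rw [D.degree_nsmul_effPull]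
      refine lt_of_lt_of_eq hlt ?_
      have hsum := FF.fundamental_identity (F' := F') o
      simp only [FF.deg_eq_one, Nat.cast_one, mul_one] at hsum ⊢
      push_cast
      rw [← Finset.mul_sum, hsum]
    -- the height of `x`
    obtain ⟨w, hw⟩ := FF.exists_restrict_eq (F' := F') o
    obtain ⟨a, ha, hwa⟩ := hfib w (Place.mem_fiber.mpr hw)
    let δ₀ := δ - X.const F' a
    have hred : redPt X w δ₀ = 0 := by rw [map_sub, hwa, redPt_const, sub_self]
    have hn' : n • δ₀ = X.map (IsScalarTower.toAlgHom K F F') γ := by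
      rw [nsmul_sub, ← map_nsmul (X.const F'), (hA a).mp ha, map_zero, sub_zero, hδn]
    have hq := D.htSym_nsmul (hP F') hred n
    rw [hn'] at hq
    have hr : D.htSym k F' (X.map (IsScalarTower.toAlgHom K F F') γ) = r * H := by
      simp only [htSym, H, ← map_neg, D.ht_map, mul_add, r]
    have hxle : D.ht k x ≤ D.htSym k F' δ₀ := by
      have h1 : D.ht k x = D.ht k δ₀ := by
        rw [show x = δ₀ + X.const F' (a + p) by rw [map_add]; simp only [δ₀, x]; abel,
          hT F']
      exact h1 ▸ D.ht_le_htSym (hT F') δ₀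
    have hr0 : (0 : ℤ) < r := by exact_mod_cast Module.finrank_pos
    push_cast at hdeg
    have h2 : (n : ℤ) ^ 2 * D.ht k x ≤ r * H := by
      rw [← hr, hq]; exact mul_le_mul_of_nonneg_left hxle (by positivity)
    have h3 : ((M : ℤ) * r) * (n : ℤ) ^ 2 ≤ (g * B * H) * r := by
      calc ((M : ℤ) * r) * (n : ℤ) ^ 2 ≤ (g * B * D.ht k x) * (n : ℤ) ^ 2 :=
            mul_le_mul_of_nonneg_right hdeg (by positivity)
        _ = (g * B : ℤ) * ((n : ℤ) ^ 2 * D.ht k x) := by ring
        _ ≤ (g * B : ℤ) * (r * H) := mul_le_mul_of_nonneg_left h2 (by positivity)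
        _ = _ := by ring
    refine le_of_mul_le_mul_right ?_ hr0
    calc (M : ℤ) * (n : ℤ) ^ 2 * r = (M * r) * (n : ℤ) ^ 2 := by ring
      _ ≤ _ := h3
  -- the smallest admissible `B`
  set M := n ^ 2 with hM
  have hex : ∃ B, N * M ^ g < B ^ g := ⟨N * M ^ g + 1,
    lt_of_lt_of_le (Nat.lt_succ_self _) (Nat.le_self_pow hg.ne' _)⟩
  have hB := key _ M (Nat.find_spec hex)
  set B := Nat.find hex
  have hB2 : 2 ≤ B := by
    by_contra! h
    have h1 : B ^ g ≤ 1 := (Nat.pow_le_pow_left (Nat.lt_succ_iff.mp h) g).trans (le_of_eq (one_pow g))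
    have h2 : 1 ≤ N * M ^ g := Nat.one_le_iff_ne_zero.mpr (by
      simp only [mul_ne_zero_iff, pow_ne_zero_iff hg.ne', hM]
      exact ⟨hN.ne', by positivity⟩)
    have : N * M ^ g < B ^ g := Nat.find_spec hex
    omega
  have hBmin : (B - 1) ^ g ≤ N * M ^ g := not_lt.mp (Nat.find_min hex (by omega))
  have hHnn : 0 ≤ H := by
    have h1 := hB
    by_contra! hneg
    have : (g : ℤ) * B * H ≤ 0 := mul_nonpos_of_nonneg_of_nonpos (by positivity) hneg.le
    have : (0 : ℤ) < (M : ℤ) * (n : ℤ) ^ 2 := by rw [hM]; positivity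
    omega
  obtain ⟨h, hh⟩ := Int.eq_ofNat_of_zero_le hHnn
  rw [hh] at hB
  rw [hh, Int.toNat_natCast]
  have hBn : M * n ^ 2 ≤ g * B * h := by exact_mod_cast hB
  have h4 : (M * n ^ 2) ^ g ≤ (2 * g * h) ^ g * (N * M ^ g) := by
    calc (M * n ^ 2) ^ g ≤ (g * B * h) ^ g := Nat.pow_le_pow_left hBn g
      _ ≤ (g * (2 * (B - 1)) * h) ^ g := Nat.pow_le_pow_left
          (Nat.mul_le_mul_right h (Nat.mul_le_mul_left g (by omega))) g
      _ = (2 * g * h) ^ g * (B - 1) ^ g := by rw [← mul_pow]; ring
      _ ≤ _ := Nat.mul_le_mul_left _ hBmin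
  rw [mul_pow, mul_comm (M ^ g), ← mul_assoc, ← pow_mul] at h4
  exact Nat.le_of_mul_le_mul_right h4 (by positivity)

end CartierData

end AbData

end Fermat.Agent.AbVar
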