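import Fermat.Agent.AbVar.Count.Upper
import Fermat.Agent.AbVar.Count.Lower
import Fermat.Agent.AbVar.Count.GenericCurve
import Fermat.Agent.AbVar.Count.Asymptotic

/-!
# The number of torsion points of an abelian variety
-/

set_option autoImplicit false

noncomputable section

universe u

open CategoryTheory CategoryTheory.Limits AlgebraicGeometry NeronModelInfra GoodReductionJacobian
open AlgebraicCurve IsLocalRing

namespace Fermat.Agent.AbVar

namespace AbData

variable {K : Type u} [Field K] [IsAlgClosed K] (X : AbData K)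

/-- The count, given translation invariance and the parallelogram law of all heights. -/
theorem natCard_torsion_of_heightLaws
    (hT : ∀ (D : X.CartierData) (k F : Type u) [Field k] [IsAlgClosed k] [Algebra K k] [Field F]
      [Algebra k F] [Algebra K F] [IsScalarTower K k F] [FF.IsFunctionField k F],
      D.TransInvariant k F)
    (hP : ∀ (D : X.CartierData) (k F : Type u) [Field k] [IsAlgClosed k] [Algebra K k] [Field F]
      [Algebra k F] [Algebra K F] [IsScalarTower K k F] [FF.IsFunctionField k F],
      D.Parallelogram k F)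
    {n : ℕ} (hn : (n : K) ≠ 0) : Nat.card (X.torsion n) = n ^ (2 * X.dim) := by
  obtain ⟨D, U, S, h0, hreg, hden, hmax, hsep⟩ := X.exists_coords
  obtain ⟨Γ⟩ := X.exists_generic_curve
  have hden' : ∀ h ∈ S, h ∈ D.denSpace 1 := fun h hh =>
    D.mem_denSpace.mpr fun z => by rw [pow_one]; exact hden h hh z
  let H := (D.htSym Γ.k Γ.F Γ.γ).toNat
  refine X.natCard_torsion_eq_of_bounds
    (C := max ((X.dim * H + 1) ^ X.dim) ((2 * X.dim * H) ^ X.dim)) (fun m hm => ?_) (fun m hm => ?_)
    hn
  · exact ((D.finite_torsion_and_card_le S h0 hreg hden' hmax hsep (hT D Γ.k Γ.F) (hP D Γ.k Γ.F) hm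
      Γ.o Γ.γ Γ.img_γ Γ.red_γ).2).trans (Nat.mul_le_mul_right _ (le_max_left _ _))
  · have hfin : Finite (X.torsion m) :=
      Set.finite_coe_iff.mpr (D.finite_torsion_and_card_le S h0 hreg hden' hmax hsep (hT D Γ.k Γ.F)
        (hP D Γ.k Γ.F) hm Γ.o Γ.γ Γ.img_γ Γ.red_γ).1
    exact (D.exists_lower_bound (fun F' => hT D Γ.k F') (fun F' => hP D Γ.k F') S h0 hreg hden' hmax
      Γ.img_γ Γ.red_γ hm hfin).trans (Nat.mul_le_mul_right _ (le_max_right _ _))

end AbData

end Fermat.Agent.AbVar
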