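import Fermat.Agent.AbVar.Count.Common
import Fermat.Agent.AbVar.Count.Quadratic

/-!
# The upper bound for the number of torsion points
-/

set_option autoImplicit false

noncomputable section

universe u

open CategoryTheory CategoryTheory.Limits AlgebraicGeometry NeronModelInfra GoodReductionJacobian
open AlgebraicCurve IsLocalRing
open scoped Classical

namespace Fermat.Agent.AbVar

namespace AbData

variable {K : Type u} [Field K] [IsAlgClosed K] {X : AbData K}

omit [IsAlgClosed K] in
theorem act_zero_zero (n : ℕ) : X.act n (0 : X.Pt K) (0 : X.Pt K) = 0 := by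
  rw [act, map_zero, nsmul_zero, zero_add]

omit [IsAlgClosed K] in
theorem act_one_apply_zero (b : X.Pt K) : X.act 1 b (0 : X.Pt K) = b := by
  rw [act, one_nsmul, zero_add, const_self]

theorem mem_maximalIdeal_pow_congr {z w : X.A} (e : z = w) {h : X.Fun} (hz : h ∈ X.loc z)
    (hw : h ∈ X.loc w) (M : ℕ) (hm : (⟨h, hz⟩ : X.loc z) ∈ maximalIdeal (X.loc z) ^ M) :
    (⟨h, hw⟩ : X.loc w) ∈ maximalIdeal (X.loc w) ^ M := by
  subst e; exact hm

/-- A monomial in rational functions. -/
def yMon {g : ℕ} (y : Fin g → X.Fun) (α : Fin g →₀ ℕ) : X.Fun := α.prod fun i m => y i ^ m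

theorem coe_tMon {g : ℕ} {z : X.A} (y : Fin g → X.Fun) (hy : ∀ i, y i ∈ X.loc z)
    (α : Fin g →₀ ℕ) :
    ((tMon (fun i => (⟨y i, hy i⟩ : X.loc z)) α : X.loc z) : X.Fun) = yMon y α := by
  show (X.loc z).val (tMon _ α) = _
  rw [tMon, map_finsuppProd]
  rfl

theorem tMon_mem_pow {z : X.A} {g : ℕ} (E : Expansion K (X.loc z) g) (t : Fin g → X.loc z)
    (ht : ∀ i, LowZero 2 (E.σ (t i) - MvPowerSeries.X i)) (α : Fin g →₀ ℕ) :
    tMon t α ∈ maximalIdeal (X.loc z) ^ α.degree := by
  rw [E.mem_pow_iff]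
  intro β hβ
  rw [lowZero_iff_sub.mp (lowZero_σ_tMon ht α) β (by omega), MvPowerSeries.coeff_monomial, if_neg]
  rintro rfl
  omega

namespace CartierData

variable (D : X.CartierData)
variable {k F : Type u} [Field k] [IsAlgClosed k] [Algebra K k] [Field F] [Algebra k F]
  [Algebra K F] [IsScalarTower K k F] [FF.IsFunctionField k F]

theorem card_le_of_subset_torsion {U : X.A.Opens} (S : Finset X.Fun)
    (h0U : X.img (0 : X.Pt K) ∈ U) (hSU : ∀ h ∈ S, ∀ z ∈ U, h ∈ X.loc z)
    (hden : ∀ h ∈ S, h ∈ D.denSpace 1)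
    (hmax : ∀ p : X.Pt K, X.img p ∈ U → ∀ hS : ∀ h ∈ S, h ∈ X.loc (X.img p),
      maximalIdeal (X.loc (X.img p)) = Ideal.span (Set.range fun h : S =>
        (⟨h.1, hS h.1 h.2⟩ : X.loc (X.img p)) -
          algebraMap K _ (X.ev p ⟨h.1, hS h.1 h.2⟩)))
    (hsep : ∀ p q : X.Pt K, X.img p ∈ U → X.img q ∈ U →
      (∀ h ∈ S, ∀ hp hq, X.ev p ⟨h, hp⟩ = X.ev q ⟨h, hq⟩) → p = q)
    (hT : D.TransInvariant k F) (hP : D.Parallelogram k F) {n : ℕ} (hn : (n : K) ≠ 0)
    (o : Place k F) (γ : X.Pt F) (hγ : X.img γ = genericPoint X.A) (hγ0 : redPt X o γ = 0)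
    (T : Finset (X.Pt K)) (hTn : ∀ p ∈ T, n • p = 0) :
    T.card ≤ (X.dim * (D.htSym k F γ).toNat + 1) ^ X.dim * n ^ (2 * X.dim) := by
  obtain ⟨a, ha⟩ := X.exists_translate (U := U) ⟨_, h0U⟩ (insert 0 T)
  have haT : ∀ p ∈ T, X.img (p + a) ∈ U := fun p hp => by
    rw [add_comm]; exact ha p (Finset.mem_insert_of_mem hp)
  have haU : X.img a ∈ U := by simpa using ha 0 (Finset.mem_insert_self _ _)
  obtain ⟨e, he⟩ := X.exists_interp D S hSU hden hsep (T.image fun p => p + a) (by
    intro p hp; obtain ⟨q, hq, rfl⟩ := Finset.mem_image.mp hp; exact haT q hq)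
  have hcard : (T.image fun p => p + a).card = T.card :=
    Finset.card_image_of_injective _ (add_left_injective a)
  rw [hcard] at he
  obtain ⟨E⟩ := X.nonempty_expansion_loc (0 : X.Pt K)
  obtain ⟨y, hyden, hyU, hyE⟩ := exists_params D S h0U hSU hden hmax E
  have hy0 : ∀ i, y i ∈ X.loc (X.img (0 : X.Pt K)) := fun i => hyU i _ h0U
  let t : Fin X.dim → X.loc (X.img (0 : X.Pt K)) := fun i => ⟨y i, hy0 i⟩
  let Y : (Fin X.dim →₀ ℕ) → X.loc (X.img (0 : X.Pt K)) := fun α =>
    X.pull n 0 0 ⟨((tMon t α : X.loc (X.img (0 : X.Pt K))) : X.Fun),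
      X.mem_loc_congr (congrArg X.img (act_zero_zero n)).symm (tMon t α).2⟩
  have hY : ∀ α, Y α ∈ maximalIdeal _ ^ α.degree := fun α => by
    rw [X.pull_mem_pow_iff hn]
    exact mem_maximalIdeal_pow_congr (congrArg X.img (act_zero_zero n)).symm (tMon t α).2 _ _
      (tMon_mem_pow E t (fun i => hyE i (hy0 i)) α)
  let Ev : (b : X.Pt K) → X.img b ∈ U → T → X.loc (X.img (0 : X.Pt K)) := fun b hb q =>
    X.pull 1 b 0 ⟨e (q + a), X.mem_loc_congr (congrArg X.img (act_one_apply_zero b)).symm
      ((he _ (Finset.mem_image_of_mem _ q.2)).2.1 _ hb)⟩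
  set Hs : ℕ := (D.htSym k F γ).toNat
  set B : ℕ := T.card * Hs + 1
  let mon : (Fin X.dim → Fin B) → (Fin X.dim →₀ ℕ) := fun β =>
    Finsupp.equivFunOnFinite.symm fun i => (β i : ℕ)
  have hmon : Function.Injective mon := fun β β' h => funext fun i => Fin.ext (by
    simpa [mon] using DFunLike.congr_fun h i)
  let G : (b : X.Pt K) → X.img b ∈ U → ((T × (Fin X.dim → Fin B)) → K) →ₗ[K]
      X.loc (X.img (0 : X.Pt K)) := fun b hb =>
    Fintype.linearCombination K (fun qβ : T × (Fin X.dim → Fin B) => Ev b hb qβ.1 * Y (mon qβ.2))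
  -- the two descriptions of `G` as rational functions
  have hEv : ∀ b hb q, (Ev b hb q : X.Fun) = X.val (X.act 1 b X.genPt) (e (q + a)) := by
    intro b hb q
    simp only [Ev]
    rw [X.coe_pull, ← X.val_eq]
  have hYv : ∀ α, (Y α : X.Fun) = X.val (X.act n 0 X.genPt) (yMon y α) := by
    intro α
    simp only [Y]
    rw [X.coe_pull, ← X.val_eq, coe_tMon]
  have h1K : ((1 : ℕ) : K) ≠ 0 := by simp
  have htrans : ∀ (c : _ → K) (p : T), G a haU c = 0 → G (p + a) (haT p p.2) c = 0 := by
    intro c p hc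
    let θ : X.Fun →ₐ[K] X.Fun := X.genEval (X.img_act_genPt h1K (p : X.Pt K))
    have hθ : ∀ (m : ℕ) (b : X.Pt K) (h : X.Fun), θ (X.val (X.act m b X.genPt) h) =
        X.val (X.act m (m • (p : X.Pt K) + b) X.genPt) h := by
      intro m b h
      rw [← X.val_map θ, X.map_act, X.map_genEval, X.act_act, mul_one]
    apply Subtype.ext
    have h0 : θ (G a haU c : X.Fun) = 0 := by rw [hc, ZeroMemClass.coe_zero, map_zero]
    rw [ZeroMemClass.coe_zero, ← h0]
    simp only [G, Fintype.linearCombination_apply, AddSubmonoidClass.coe_finsetSum, map_sum]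
    refine Finset.sum_congr rfl fun qβ _ => ?_
    simp only [Subalgebra.coe_smul, Subalgebra.coe_mul, map_smul, map_mul, hEv, hYv, hθ, one_nsmul,
      hTn p p.2, zero_add]
  have hindep : ∀ c : _ → K, G a haU c = 0 → c = 0 := by
    intro c hc
    by_contra hne
    obtain ⟨qβ₀, hqβ₀⟩ : ∃ qβ, c qβ ≠ 0 := Function.ne_iff.mp hne
    have hex : ∃ j, ∃ qβ, c qβ ≠ 0 ∧ (mon qβ.2).degree = j := ⟨_, qβ₀, hqβ₀, rfl⟩
    let j := Nat.find hex
    obtain ⟨⟨p, β⟩, hpβ, hdeg⟩ := Nat.find_spec hex
    change (mon β).degree = j at hdeg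
    have hGp := htrans c p hc
    set m := maximalIdeal (X.loc (X.img (0 : X.Pt K)))
    have hδ : ∀ q : T, Ev (p + a) (haT p p.2) q - algebraMap K _ (if p = q then 1 else 0) ∈ m := by
      intro q
      rw [mem_maximalIdeal, mem_nonunits_iff, ← X.isUnit_ev_iff, isUnit_iff_ne_zero, not_not,
        map_sub, AlgHom.commutes, sub_eq_zero]
      simp only [Ev]
      rw [X.ev_pull]
      have hm := (he _ (Finset.mem_image_of_mem _ q.2)).2.1 _ (haT p p.2)
      rw [X.ev_congr (act_one_apply_zero _) _ hm, ← X.val_eq,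
        (he _ (Finset.mem_image_of_mem _ q.2)).2.2 _ (Finset.mem_image_of_mem _ p.2)]
      rw [Algebra.algebraMap_self, RingHom.id_apply]
      exact if_congr ((add_left_injective a).eq_iff.trans Subtype.coe_injective.eq_iff) rfl rfl
    let A := (Finset.univ.filter fun β : Fin X.dim → Fin B => (mon β).degree = j).image mon
    let c' : (Fin X.dim →₀ ℕ) → K := Function.extend mon (fun β => c (p, β)) 0
    have hsum : X.pull n 0 0 ⟨((∑ α ∈ A, c' α • tMon t α : X.loc (X.img (0 : X.Pt K))) : X.Fun),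
        X.mem_loc_congr (congrArg X.img (act_zero_zero n)).symm
          (∑ α ∈ A, c' α • tMon t α : X.loc (X.img (0 : X.Pt K))).2⟩ =
        ∑ β ∈ Finset.univ.filter (fun β : Fin X.dim → Fin B => (mon β).degree = j),
          c (p, β) • Y (mon β) := by
      have hz : ∀ β, ((tMon t (mon β) : X.loc (X.img (0 : X.Pt K))) : X.Fun) ∈
          X.loc (X.img (X.act n 0 0)) := fun β =>
        X.mem_loc_congr (congrArg X.img (act_zero_zero n)).symm (tMon t (mon β)).2
      let z : (Fin X.dim → Fin B) → X.loc (X.img (X.act n 0 0)) := fun β => ⟨_, hz β⟩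
      trans X.pull n 0 0 (∑ β ∈ Finset.univ.filter
        (fun β : Fin X.dim → Fin B => (mon β).degree = j), c (p, β) • z β)
      · congr 1
        apply Subtype.ext
        simp only [A]
        rw [Finset.sum_image hmon.injOn, AddSubmonoidClass.coe_finsetSum,
          AddSubmonoidClass.coe_finsetSum]
        refine Finset.sum_congr rfl fun β _ => ?_
        rw [Subalgebra.coe_smul, Subalgebra.coe_smul,
          show c' (mon β) = c (p, β) from hmon.extend_apply (fun β => c (p, β)) 0 β]
      · rw [map_sum]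
        exact Finset.sum_congr rfl fun β _ => map_smul _ _ _
    have hmem : ∑ β ∈ Finset.univ.filter (fun β : Fin X.dim → Fin B => (mon β).degree = j),
          c (p, β) • Y (mon β) ∈ m ^ (j + 1) := by
      have hterm : ∀ qβ : T × (Fin X.dim → Fin B), c qβ • (Ev (p + a) (haT p p.2) qβ.1 * Y (mon qβ.2)) -
          (if p = qβ.1 ∧ (mon qβ.2).degree = j then c qβ • Y (mon qβ.2) else 0) ∈ m ^ (j + 1) := by
        rintro ⟨q, β'⟩
        rcases eq_or_ne (c (q, β')) 0 with h0 | h0
        · simp [h0]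
        have hle : j ≤ (mon β').degree := Nat.find_min' hex ⟨_, h0, rfl⟩
        rcases eq_or_lt_of_le hle with heq | hlt
        · have key : (Ev (p + a) (haT p p.2) q - algebraMap K _ (if p = q then 1 else 0)) *
              Y (mon β') ∈ m ^ (j + 1) := by
            rw [pow_succ', heq]
            exact Submodule.mul_mem_mul (hδ q) (hY _)
          have := Submodule.smul_of_tower_mem (m ^ (j + 1)) (c (q, β')) key
          convert this using 1
          by_cases hpq : p = q
          · simp [hpq, heq, sub_mul, smul_sub]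
          · simp [hpq]
        · rw [if_neg (fun h => absurd h.2 (Nat.ne_of_gt hlt)), sub_zero]
          refine Submodule.smul_of_tower_mem _ _ ?_
          exact Ideal.mul_mem_left _ _ (Ideal.pow_le_pow_right hlt (hY _))
      have := Ideal.sum_mem _ (fun qβ (_ : qβ ∈ Finset.univ) => hterm qβ)
      rw [Finset.sum_sub_distrib, ← Fintype.linearCombination_apply] at this
      change G (p + a) (haT p p.2) c - _ ∈ _ at this
      rw [hGp, zero_sub, neg_mem_iff] at this
      convert this using 1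
      rw [Finset.sum_filter, Fintype.sum_prod_type, Finset.sum_eq_single p]
      · simp
      · intro q _ hq; exact Finset.sum_eq_zero fun β' _ => by simp [Ne.symm hq]
      · simp
    rw [← hsum, X.pull_mem_pow_iff hn] at hmem
    have h2 := mem_maximalIdeal_pow_congr (congrArg X.img (act_zero_zero n)) _
      (∑ α ∈ A, c' α • tMon t α : X.loc (X.img (0 : X.Pt K))).2 _ hmem
    have hc' := eq_zero_of_sum_mem_pow E t (fun i => hyE i (hy0 i)) j A
      (fun α hα => by
        obtain ⟨β', hβ', rfl⟩ := Finset.mem_image.mp hα; exact (Finset.mem_filter.mp hβ').2)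
      c' h2 (mon β) (Finset.mem_image_of_mem _ (Finset.mem_filter.mpr ⟨Finset.mem_univ _, hdeg⟩))
    exact hpβ ((hmon.extend_apply (fun β => c (p, β)) 0 β).symm.trans hc')
  -- values at the curve
  set M : ℕ := T.card * Hs + X.dim * B * (n ^ 2 * Hs) + 1
  have hvan : ∀ c : _ → K, G a haU c ∈ maximalIdeal _ ^ M → c = 0 := by
    intro c hc
    refine hindep c ?_
    have hs := X.img_specializes_zero hγ0
    have h1 : ∀ r ∈ maximalIdeal (X.loc (X.img (0 : X.Pt K))),
        X.val γ (r : X.Fun) ∈ FF.ordGe o (1 : ℕ) := by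
      intro r hr
      have hr0 : (r : X.Fun) ∈ X.loc (X.img (redPt X o γ)) := by
        rw [hγ0, show (0 : X.Pt k) = X.const k 0 from (map_zero _).symm, X.img_const]; exact r.2
      have hr' := X.loc_le_of_specializes hs r.2
      obtain ⟨hm, hv⟩ := ev_redPt o X γ hr0 hr'
      rw [X.val_eq hr']
      have h0 : valHom K o ⟨_, hm⟩ = 0 := by
        rw [hv]
        by_contra hne
        refine (mem_maximalIdeal _).mp hr ?_
        have hu : IsUnit (⟨(r : X.Fun), hr0⟩ : X.loc (X.img (redPt X o γ))) :=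
          (X.isUnit_ev_iff _ _).mp (isUnit_iff_ne_zero.mpr hne)
        have himg : X.img (redPt X o γ) = X.img (0 : X.Pt K) := by
          rw [hγ0, show (0 : X.Pt k) = X.const k 0 from (map_zero _).symm, X.img_const]
        have := hu.map (Subalgebra.inclusion (le_of_eq (congrArg X.loc himg)))
        exact this
      have hnu := (valHom_eq_zero_iff o _).mp h0
      rw [FF.mem_ordGe]
      rcases eq_or_ne (X.ev γ ⟨(r : X.Fun), hr'⟩) 0 with h | h
      · exact Or.inl h
      refine Or.inr ?_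
      have h3 : 0 ≤ o.ord _ := FF.ord_nonneg o hm
      by_contra hlt
      have h4 : o.ord (X.ev γ ⟨(r : X.Fun), hr'⟩) = 0 := by omega
      have h5 : (X.ev γ ⟨(r : X.Fun), hr'⟩)⁻¹ ∈ o.toValuationSubring :=
        (FF.mem_iff o).mpr (Or.inr (by rw [o.ord_inv, h4, neg_zero]))
      have hnu' : X.ev γ ⟨(r : X.Fun), hr'⟩ ∈ o.toValuationSubring.nonunits := hnu
      rw [← inv_inv (X.ev γ ⟨(r : X.Fun), hr'⟩), ValuationSubring.inv_mem_nonunits_iff] at hnu'
      exact (hnu'.resolve_left (inv_ne_zero h)) h5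
    have hord := val_mem_ordGe_of_mem_pow hγ0 h1 hc
    rw [mul_one] at hord
    have hga : X.img (X.act 1 a γ) = genericPoint X.A := by
      rw [X.img_act, hγ, X.endoMor_genericPoint h1K]
    have hgn : X.img (X.act n 0 γ) = genericPoint X.A := by
      rw [X.img_act, hγ, X.endoMor_genericPoint hn]
    let E' : Divisor k F := T.card • D.effPull k hga + (X.dim * B) • D.effPull k hgn
    have hmemE : X.val γ (G a haU c : X.Fun) ∈ riemannRochSpace E' := by
      show X.genEval hγ _ ∈ _
      simp only [G, Fintype.linearCombination_apply, AddSubmonoidClass.coe_finsetSum, map_sum]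
      refine Submodule.sum_mem _ fun qβ _ => ?_
      rw [Subalgebra.coe_smul, map_smul, ← algebraMap_smul k (c qβ), Subalgebra.coe_mul, map_mul]
      refine Submodule.smul_mem _ _ (mul_mem_riemannRochSpace ?_ ?_)
      · show X.val γ (Ev a haU qβ.1 : X.Fun) ∈ _
        simp only [Ev]
        rw [X.val_act 1 a 0 hs]
        exact D.val_mem_riemannRochSpace hga (he _ (Finset.mem_image_of_mem _ qβ.1.2)).1
      · show X.val γ (Y (mon qβ.2) : X.Fun) ∈ _
        simp only [Y]
        rw [X.val_act n 0 0 hs, coe_tMon]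
        refine D.val_mem_riemannRochSpace hgn (D.denSpace_mono ?_
          (D.prod_mem_denSpace (mon qβ.2).support (n := fun i => mon qβ.2 i) fun i _ => ?_))
        · calc ∑ i ∈ (mon qβ.2).support, mon qβ.2 i ≤ ∑ i, mon qβ.2 i :=
                Finset.sum_le_sum_of_subset (Finset.subset_univ _)
            _ ≤ ∑ _i : Fin X.dim, B := Finset.sum_le_sum fun i _ => by
                simp only [mon, Finsupp.equivFunOnFinite_symm_apply_apply]
                exact (qβ.2 i).isLt.le
            _ = X.dim * B := by simp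
        · simpa using D.pow_mem_denSpace (hyden i) (mon qβ.2 i)
    have hdegE : Divisor.degree E' < (M : ℤ) := by
      have hHs : D.htSym k F γ ≤ (Hs : ℤ) := Int.self_le_toNat _
      have h1' : D.ht k (X.act 1 a γ) ≤ Hs := by
        rw [act, one_nsmul, hT]
        exact (D.ht_le_htSym hT γ).trans hHs
      have h2' : D.ht k (X.act n 0 γ) ≤ (n : ℤ) ^ 2 * Hs := by
        rw [act, map_zero, add_zero]
        refine (D.ht_le_htSym hT _).trans ?_
        rw [D.htSym_nsmul hP hγ0]
        exact mul_le_mul_of_nonneg_left hHs (by positivity)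
      rw [map_add, D.degree_nsmul_effPull, D.degree_nsmul_effPull]
      have h3 := mul_le_mul_of_nonneg_left h1' (Int.natCast_nonneg T.card)
      have h4 := mul_le_mul_of_nonneg_left h2' (Int.natCast_nonneg (X.dim * B))
      have hM : (M : ℤ) = (T.card : ℤ) * Hs + ((X.dim * B : ℕ) : ℤ) * ((n : ℤ) ^ 2 * Hs) + 1 := by
        simp only [M]; push_cast; ring
      omega
    have hzero : X.val γ (G a haU c : X.Fun) = 0 := by
      refine eq_zero_of_mem_riemannRoch_of_ordGe
        (add_nonneg (D.nsmul_effPull_nonneg hga _) (D.nsmul_effPull_nonneg hgn _)) hmemE {o}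
        (fun _ => M) (fun P hP' => by rw [Finset.mem_singleton.mp hP']; exact hord) ?_
      rw [Finset.sum_singleton, FF.deg_eq_one, Nat.cast_one, mul_one]
      exact hdegE
    refine Subtype.ext ?_
    exact (X.genEval hγ).injective (hzero.trans (map_zero (X.genEval hγ)).symm)
  -- the count
  let L : ((T × (Fin X.dim → Fin B)) → K) →ₗ[K] ((Fin X.dim → Fin M) → K) :=
    (LinearMap.pi fun α : Fin X.dim → Fin M => (MvPowerSeries.coeff
      (Finsupp.equivFunOnFinite.symm fun i => (α i : ℕ))).comp E.σ.toLinearMap).comp (G a haU)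
  have hL : Function.Injective L := by
    refine (injective_iff_map_eq_zero L).mpr fun c hc => hvan c ?_
    rw [E.mem_pow_iff]
    intro α hα
    have hlt : ∀ i, α i < M := fun i => lt_of_le_of_lt (Finsupp.le_degree i α) hα
    have := congrFun hc fun i => ⟨α i, hlt i⟩
    have e2 : MvPowerSeries.coeff (Finsupp.equivFunOnFinite.symm fun i => α i)
        (E.σ (G a haU c)) = 0 := this
    rwa [show (Finsupp.equivFunOnFinite.symm fun i => α i) = α from
      Equiv.symm_apply_apply _ α] at e2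
  have hdim := LinearMap.finrank_le_finrank_of_injective hL
  simp only [Module.finrank_pi, Fintype.card_prod, Fintype.card_coe, Fintype.card_fun,
    Fintype.card_fin] at hdim
  have hn1 : 1 ≤ n := Nat.one_le_iff_ne_zero.mpr fun h => hn (by rw [h, Nat.cast_zero])
  have hM : M ≤ B * ((X.dim * Hs + 1) * n ^ 2) := by
    have : 1 ≤ n ^ 2 := Nat.one_le_pow _ _ hn1
    calc M = B * (X.dim * (n ^ 2 * Hs) + 1) := by simp only [M, B]; ring
      _ ≤ B * ((X.dim * Hs + 1) * n ^ 2) := by
          refine Nat.mul_le_mul_left _ ?_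
          rw [add_mul, one_mul]
          exact Nat.add_le_add (by rw [← mul_assoc, mul_right_comm]) this
  have hB : 0 < B ^ X.dim := pow_pos (Nat.succ_pos _) _
  have h5 := hdim.trans (Nat.pow_le_pow_left hM _)
  rw [mul_pow, mul_comm T.card] at h5
  have h6 := Nat.le_of_mul_le_mul_left h5 hB
  rwa [mul_pow, ← pow_mul] at h6

/-- Finiteness of the torsion and its upper bound. -/
theorem finite_torsion_and_card_le {U : X.A.Opens} (S : Finset X.Fun)
    (h0U : X.img (0 : X.Pt K) ∈ U) (hSU : ∀ h ∈ S, ∀ z ∈ U, h ∈ X.loc z)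
    (hden : ∀ h ∈ S, h ∈ D.denSpace 1)
    (hmax : ∀ p : X.Pt K, X.img p ∈ U → ∀ hS : ∀ h ∈ S, h ∈ X.loc (X.img p),
      maximalIdeal (X.loc (X.img p)) = Ideal.span (Set.range fun h : S =>
        (⟨h.1, hS h.1 h.2⟩ : X.loc (X.img p)) -
          algebraMap K _ (X.ev p ⟨h.1, hS h.1 h.2⟩)))
    (hsep : ∀ p q : X.Pt K, X.img p ∈ U → X.img q ∈ U →
      (∀ h ∈ S, ∀ hp hq, X.ev p ⟨h, hp⟩ = X.ev q ⟨h, hq⟩) → p = q)
    (hT : D.TransInvariant k F) (hP : D.Parallelogram k F) {n : ℕ} (hn : (n : K) ≠ 0)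
    (o : Place k F) (γ : X.Pt F) (hγ : X.img γ = genericPoint X.A) (hγ0 : redPt X o γ = 0) :
    {p : X.Pt K | n • p = 0}.Finite ∧ Nat.card {p : X.Pt K // n • p = 0} ≤
      (X.dim * (D.htSym k F γ).toNat + 1) ^ X.dim * n ^ (2 * X.dim) := by
  set C := (X.dim * (D.htSym k F γ).toNat + 1) ^ X.dim * n ^ (2 * X.dim)
  have hb : ∀ T : Finset (X.Pt K), (∀ p ∈ T, n • p = 0) → T.card ≤ C := fun T hT' =>
    D.card_le_of_subset_torsion S h0U hSU hden hmax hsep hT hP hn o γ hγ hγ0 T hT'
  have hfin : {p : X.Pt K | n • p = 0}.Finite := by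
    by_contra hinf
    obtain ⟨T, hTs, hTc⟩ := Set.Infinite.exists_subset_card_eq hinf (C + 1)
    have := hb T fun p hp => hTs hp
    omega
  refine ⟨hfin, ?_⟩
  rw [show Nat.card {p : X.Pt K // n • p = 0} = hfin.toFinset.card from
    Nat.card_eq_card_finite_toFinset hfin]
  exact hb _ fun p hp => by simpa using hp

end CartierData

end AbData

end Fermat.Agent.AbVar
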